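import Mathlib

/-!
# Finiteness of the normalisation of an affine curve over a perfect field

Mathlib proves finiteness of the integral closure only in a finite *separable* extension of the
fraction field.  For `A = K[T]`, `K` perfect, we remove the separability hypothesis with the
Frobenius trick: `F_s` the separable closure of `E = K(T)` in `F`, `ψ : F → F_s`, `y ↦ y ^ q` the
iterated Frobenius; `ψ` is injective and semilinear over the iterated Frobenius `i` of `K[T]`,
which is a *finite* ring homomorphism since `K` is perfect.
-/

namespace Fermat.Agent.S26lib.Curves

open Polynomial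

section Semilinear

/-- A module which embeds semilinearly, along a finite ring homomorphism, into a finite module
over a noetherian ring is finite. -/
theorem finite_of_semilinear_injective {R R' M N : Type*} [CommRing R] [CommRing R']
    [IsNoetherianRing R] [AddCommGroup M] [Module R M] [AddCommGroup N] [Module R' N]
    [Module.Finite R' N] (i : R →+* R') (hi : i.Finite) (ψ : M →+ N)
    (hψ : Function.Injective ψ) (hsl : ∀ (r : R) (m : M), ψ (r • m) = i r • ψ m) :
    Module.Finite R M := by
  let _ : Algebra R R' := i.toAlgebra
  let _ : Module R N := Module.compHom N i
  have hsm : ∀ (r : R) (n : N), r • n = i r • n := fun _ _ => rfl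
  have : IsScalarTower R R' N := ⟨fun r r' n => by
    rw [Algebra.smul_def, hsm, mul_smul]
    rfl⟩
  have : Module.Finite R R' := hi
  have : Module.Finite R N := Module.Finite.trans R' N
  let ψl : M →ₗ[R] N :=
    { toFun := ψ
      map_add' := ψ.map_add
      map_smul' := fun r m => hsl r m }
  exact Module.Finite.of_injective ψl hψ

end Semilinear

section Frobenius

variable (K : Type*) [Field K] [PerfectField K] (p : ℕ) [ExpChar K p]

/-- Over a perfect field, the iterated Frobenius of `K[T]` is a finite ring homomorphism. -/
theorem iterateFrobenius_polynomial_finite (n : ℕ) : (iterateFrobenius K[X] p n).Finite := by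
  apply RingHom.Finite.of_isIntegral_of_finiteType
  · intro f
    refine ⟨X ^ p ^ n - C f, monic_X_pow_sub_C f (pow_ne_zero n (expChar_pos K p).ne'), ?_⟩
    simp [iterateFrobenius_def]
  · let _ : Algebra K[X] K[X] := (iterateFrobenius K[X] p n).toAlgebra
    change Algebra.FiniteType K[X] K[X]
    refine ⟨{X}, ?_⟩
    rw [eq_top_iff]
    intro f _
    clear ‹f ∈ _›
    induction f using Polynomial.induction_on with
    | C a =>
      have : (C a : K[X]) = algebraMap K[X] K[X] (C ((iterateFrobeniusEquiv K p n).symm a)) := by
        rw [RingHom.algebraMap_toAlgebra, iterateFrobenius_def, ← C_pow,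
          ← iterateFrobeniusEquiv_def K p n, RingEquiv.apply_symm_apply]
      rw [this]
      exact Subalgebra.algebraMap_mem _ _
    | add f g hf hg => exact Subalgebra.add_mem _ hf hg
    | monomial k a h =>
      rw [pow_succ, ← mul_assoc]
      exact Subalgebra.mul_mem _ h (Algebra.subset_adjoin (by simp))

end Frobenius

section Main

variable {A : Type*} [CommRing A] [IsDomain A] [IsNoetherianRing A] [IsIntegrallyClosed A]
  (E : Type*) [Field E] [Algebra A E] [IsFractionRing A E]
  {F : Type*} [Field F] [Algebra E F] [Algebra A F] [IsScalarTower A E F] [FiniteDimensional E F]

include E in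
/-- **Finiteness of the integral closure without separability**, for an integrally closed
noetherian domain `A` all of whose iterated Frobenius endomorphisms are finite. -/
theorem finite_integralClosure_of_finite_frobenius (p : ℕ) [ExpChar A p]
    (hfrob : ∀ n, (iterateFrobenius A p n).Finite) :
    Module.Finite A (integralClosure A F) := by
  have hpE : ExpChar E p := expChar_of_injective_algebraMap (IsFractionRing.injective A E) p
  have hpFs : ExpChar (separableClosure E F) p :=
    expChar_of_injective_algebraMap (algebraMap E (separableClosure E F)).injective p
  have hT : IsScalarTower A (separableClosure E F) F :=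
    IsScalarTower.of_algebraMap_eq (fun _ => rfl)
  set e : ℕ := IsPurelyInseparable.exponent (separableClosure E F) F with he
  let ψ : F →+* separableClosure E F :=
    IsPurelyInseparable.iterateFrobenius (separableClosure E F) F p (le_refl e)
  have hψ : ∀ a : F, algebraMap (separableClosure E F) F (ψ a) = a ^ p ^ e :=
    IsPurelyInseparable.algebraMap_iterateFrobenius (separableClosure E F) p (le_refl e)
  have hinj : Function.Injective (algebraMap (separableClosure E F) F) :=
    (algebraMap (separableClosure E F) F).injective
  have hfinCs : Module.Finite A (integralClosure A (separableClosure E F)) :=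
    IsIntegralClosure.finite A E (separableClosure E F) (integralClosure A (separableClosure E F))
  have hmem : ∀ y : integralClosure A F, ψ (y : F) ∈ integralClosure A (separableClosure E F) := by
    intro y
    change IsIntegral A (ψ (y : F))
    rw [← isIntegral_algebraMap_iff (B := F) hinj, hψ]
    exact (y.2 : IsIntegral A (y : F)).pow _
  let ψM : integralClosure A F →+ integralClosure A (separableClosure E F) :=
    { toFun := fun y => ⟨ψ (y : F), hmem y⟩
      map_zero' := Subtype.ext (map_zero ψ)
      map_add' := fun y z => Subtype.ext (map_add ψ (y : F) (z : F)) }
  refine finite_of_semilinear_injective (iterateFrobenius A p e) (hfrob e) ψM ?_ ?_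
  · intro y z hyz
    apply Subtype.ext
    exact ψ.injective (congrArg Subtype.val hyz)
  · intro a y
    apply Subtype.ext
    apply hinj
    change algebraMap (separableClosure E F) F (ψ ((a • y : integralClosure A F) : F)) =
      algebraMap (separableClosure E F) F
        ((iterateFrobenius A p e a • ψM y : integralClosure A (separableClosure E F)) :
          separableClosure E F)
    rw [hψ]
    have h1 : ((a • y : integralClosure A F) : F) = algebraMap A F a * (y : F) := by
      rw [← Algebra.smul_def]
      rfl
    have h2 : ((iterateFrobenius A p e a • ψM y : integralClosure A (separableClosure E F)) :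
        separableClosure E F) =
        algebraMap A (separableClosure E F) (iterateFrobenius A p e a) * ψ (y : F) := by
      rw [← Algebra.smul_def]
      rfl
    rw [h1, h2, map_mul, hψ, mul_pow, iterateFrobenius_def, ← IsScalarTower.algebraMap_apply,
      map_pow]

end Main

section Curve

open scoped nonZeroDivisors

variable (K : Type*) [Field K] [PerfectField K] {B' : Type*} [CommRing B'] [IsDomain B']
  [Algebra K[X] B'] [FaithfulSMul K[X] B'] [Module.Finite K[X] B']
  (F : Type*) [Field F] [Algebra B' F] [IsFractionRing B' F]

include K in
/-- **Finiteness of the normalisation of an affine curve over a perfect field**: if the domain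
`B'` is a finite extension of `K[T]`, then its integral closure in its fraction field is a finite
`B'`-module. -/
theorem finite_integralClosure_of_finite_polynomial :
    Module.Finite B' (integralClosure B' F) := by
  let _ : Algebra K[X] F := ((algebraMap B' F).comp (algebraMap K[X] B')).toAlgebra
  have hT : IsScalarTower K[X] B' F := IsScalarTower.of_algebraMap_eq (fun _ => rfl)
  have hinjF : Function.Injective (algebraMap K[X] F) :=
    (IsFractionRing.injective B' F).comp (FaithfulSMul.algebraMap_injective K[X] B')
  have hfaith : FaithfulSMul K[X] F := (faithfulSMul_iff_algebraMap_injective _ _).mpr hinjF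
  let _ : Algebra (FractionRing K[X]) F := FractionRing.liftAlgebra K[X] F
  have hint : Algebra.IsIntegral K[X] B' := Algebra.IsIntegral.of_finite K[X] B'
  have hfd : FiniteDimensional (FractionRing K[X]) F :=
    Module.Finite.of_isLocalization K[X] B' K[X]⁰
  let p := ringExpChar K
  have hp : ExpChar K p := ringExpChar.expChar K
  have H : Module.Finite K[X] (integralClosure K[X] F) :=
    finite_integralClosure_of_finite_frobenius (FractionRing K[X]) p
      (iterateFrobenius_polynomial_finite K p)
  have hfg : (Subalgebra.toSubmodule (integralClosure K[X] F)).FG := Module.Finite.iff_fg.mp H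
  obtain ⟨S, hS⟩ := hfg
  have hcar : ∀ y : F, y ∈ integralClosure B' F ↔ y ∈ integralClosure K[X] F := by
    intro y
    constructor
    · intro hy
      exact isIntegral_trans (R := K[X]) (A := B') y hy
    · intro hy
      exact IsIntegral.tower_top (R := K[X]) (A := B') hy
  suffices h : (Subalgebra.toSubmodule (integralClosure B' F)).FG from Module.Finite.iff_fg.mpr h
  refine ⟨S, le_antisymm ?_ ?_⟩
  · rw [Submodule.span_le]
    intro y hy
    have : y ∈ Submodule.span K[X] (S : Set F) := Submodule.subset_span hy
    rw [hS] at this
    exact (hcar y).mpr this
  · intro y hy
    have h1 : y ∈ Subalgebra.toSubmodule (integralClosure K[X] F) := (hcar y).mp hy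
    rw [← hS] at h1
    exact Submodule.span_subset_span K[X] B' _ h1

end Curve

end Fermat.Agent.S26lib.Curves
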