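import Mathlib
import Fermat.Agent.S26lib.UFD.SmoothAlgebra

/-!
# A normal affine curve over an algebraically closed field is smooth

`Bt` a finitely generated `K`-domain, integrally closed, integral over a polynomial ring `K[T]`,
`K` algebraically closed.  Then `Bt` is a Dedekind domain and `Algebra.Smooth K Bt`.

Smoothness at a maximal ideal `m`: pick `π ∈ m` generating `m Bt_m` (a DVR); `K[T] → Bt`,
`T ↦ π` is flat (torsion-free over a PID) and unramified at `m` (`(T) Bt_m = m Bt_m`, residue
fields `K`), hence étale at `m`, so `Bt_m` is formally smooth over `K[T]` and over `K`.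
-/

namespace Fermat.Agent.S26lib.Curves

open Polynomial IsLocalRing

universe u v

section Dedekind

variable {K : Type u} [Field K] {Bt : Type v} [CommRing Bt] [IsDomain Bt] [Algebra K Bt]

/-- A finitely generated integrally closed domain which is integral over `K[T]` is Dedekind. -/
theorem isDedekindDomain_of_integral_polynomial [Algebra.FiniteType K Bt] [IsIntegrallyClosed Bt]
    (φ : K[X] →ₐ[K] Bt) (hφ : φ.toRingHom.IsIntegral) : IsDedekindDomain Bt := by
  let _ : Algebra K[X] Bt := φ.toRingHom.toAlgebra
  have hint : Algebra.IsIntegral K[X] Bt := ⟨hφ⟩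
  have hnoeth : IsNoetherianRing Bt := Algebra.FiniteType.isNoetherianRing K Bt
  have hdim : Ring.DimensionLEOne Bt := Ring.DimensionLEOne.of_isIntegral K[X] Bt
  have hclosed : IsIntegrallyClosed Bt := inferInstance
  exact { toIsDomain := inferInstance
          toIsNoetherian := hnoeth
          toDimensionLEOne := hdim
          toIsIntegralClosure := hclosed }

omit [IsDomain Bt] in
/-- A domain which is an injective integral extension of `K[T]` is not a field. -/
theorem not_isField_of_integral_polynomial (φ : K[X] →ₐ[K] Bt) (hinj : Function.Injective φ)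
    (hφ : φ.toRingHom.IsIntegral) : ¬ IsField Bt := by
  intro hF
  let _ : Algebra K[X] Bt := φ.toRingHom.toAlgebra
  have hint : Algebra.IsIntegral K[X] Bt := ⟨hφ⟩
  exact Polynomial.not_isField K (isField_of_isIntegral_of_isField (R := K[X]) (S := Bt) hinj hF)

omit [IsDomain Bt] in
/-- In a Dedekind domain, the maximal ideal of the localisation at a nonzero prime `m` is generated
by (the image of) an element of `m`. -/
theorem exists_uniformizer [IsDedekindDomain Bt] (m : Ideal Bt) [m.IsPrime] (hm0 : m ≠ ⊥) :
    ∃ π : Bt, π ∈ m ∧ Ideal.span {algebraMap Bt (Localization.AtPrime m) π} =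
      maximalIdeal (Localization.AtPrime m) := by
  have hdvr : IsDiscreteValuationRing (Localization.AtPrime m) :=
    IsLocalization.AtPrime.isDiscreteValuationRing_of_dedekind_domain Bt hm0 _
  obtain ⟨ϖ, hϖ⟩ := IsDiscreteValuationRing.exists_irreducible (Localization.AtPrime m)
  obtain ⟨b, s, hbs⟩ := IsLocalization.exists_mk'_eq m.primeCompl ϖ
  have hunit : IsUnit (algebraMap Bt (Localization.AtPrime m) s) :=
    IsLocalization.map_units (Localization.AtPrime m) s
  have hb : algebraMap Bt (Localization.AtPrime m) b =
      ϖ * algebraMap Bt (Localization.AtPrime m) s := by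
    rw [← hbs, IsLocalization.mk'_spec]
  have hspan : Ideal.span {algebraMap Bt (Localization.AtPrime m) b} =
      maximalIdeal (Localization.AtPrime m) := by
    rw [hϖ.maximalIdeal_eq, hb, Ideal.span_singleton_mul_right_unit hunit]
  refine ⟨b, ?_, hspan⟩
  rw [← IsLocalization.AtPrime.to_map_mem_maximal_iff (Localization.AtPrime m) m, ← hspan]
  exact Ideal.mem_span_singleton_self _

omit [IsDomain Bt] in
/-- A uniformiser at a nonzero prime of a Dedekind `K`-algebra is transcendental over the
algebraically closed field `K`. -/
theorem transcendental_of_uniformizer [IsAlgClosed K] [IsDedekindDomain Bt] (m : Ideal Bt)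
    [hmp : m.IsPrime] (hm0 : m ≠ ⊥) {π : Bt} (hπm : π ∈ m)
    (hπ : Ideal.span {algebraMap Bt (Localization.AtPrime m) π} =
      maximalIdeal (Localization.AtPrime m)) : Transcendental K π := by
  intro halg
  have hint : IsIntegral K π := halg.isIntegral
  have hirr : Irreducible (minpoly K π) := minpoly.irreducible hint
  have hdeg : (minpoly K π).degree = 1 := IsAlgClosed.degree_eq_one_of_irreducible K hirr
  obtain ⟨c, hc⟩ := minpoly.mem_range_of_degree_eq_one K π hdeg
  have hdvr : IsDiscreteValuationRing (Localization.AtPrime m) :=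
    IsLocalization.AtPrime.isDiscreteValuationRing_of_dedekind_domain Bt hm0 _
  by_cases hc0 : c = 0
  · have hπ0 : π = 0 := by rw [← hc, hc0, map_zero]
    rw [hπ0, map_zero, Ideal.span_singleton_eq_bot.mpr rfl] at hπ
    exact IsDiscreteValuationRing.not_a_field (Localization.AtPrime m) hπ.symm
  · have hu : IsUnit π := by
      rw [← hc]
      exact (isUnit_iff_ne_zero.mpr hc0).map (algebraMap K Bt)
    exact hmp.ne_top (Ideal.eq_top_of_isUnit_mem m hπm hu)

end Dedekind

section Smooth

variable {K : Type u} [Field K] [IsAlgClosed K] {Bt : Type v} [CommRing Bt] [Algebra K Bt]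
  [Algebra.FiniteType K Bt] [IsDedekindDomain Bt]

/-- A Dedekind domain of finite type over an algebraically closed field is smooth at every
maximal ideal. -/
theorem isSmoothAt_of_isMaximal (hB : ¬ IsField Bt) (m : Ideal Bt) [hm : m.IsMaximal] :
    Algebra.IsSmoothAt K m := by
  have hm0 : m ≠ ⊥ := Ring.ne_bot_of_isMaximal_of_not_isField hm hB
  obtain ⟨π, hπm, hπ⟩ := exists_uniformizer m hm0
  have htr : Transcendental K π := transcendental_of_uniformizer m hm0 hπm hπ
  let _ : Algebra K[X] Bt := (Polynomial.aeval π : K[X] →ₐ[K] Bt).toRingHom.toAlgebra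
  have halg : ∀ p : K[X], algebraMap K[X] Bt p = Polynomial.aeval π p := fun _ => rfl
  have hT : IsScalarTower K K[X] Bt := IsScalarTower.of_algebraMap_eq (fun c => by
    rw [halg, Polynomial.algebraMap_apply, Algebra.algebraMap_self, RingHom.id_apply,
      Polynomial.aeval_C])
  have hinj : Function.Injective (algebraMap K[X] Bt) := transcendental_iff_injective.mp htr
  have hfaith : FaithfulSMul K[X] Bt := (faithfulSMul_iff_algebraMap_injective _ _).mpr hinj
  have hflat : Module.Flat K[X] Bt := inferInstance
  have hft : Algebra.FiniteType K[X] Bt :=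
    Algebra.FiniteType.of_restrictScalars_finiteType K K[X] Bt
  have hfp : Algebra.FinitePresentation K[X] Bt := Algebra.FinitePresentation.of_finiteType.mp hft
  -- the prime `(T)` below `m`
  have hpmax : (Ideal.span {(X : K[X])}).IsMaximal :=
    PrincipalIdealRing.isMaximal_of_irreducible Polynomial.irreducible_X
  have hover : m.LiesOver (Ideal.span {(X : K[X])}) := by
    constructor
    have hle : Ideal.span {(X : K[X])} ≤ m.under K[X] := by
      rw [Ideal.span_singleton_le_iff_mem]
      change algebraMap K[X] Bt X ∈ m
      rw [halg, Polynomial.aeval_X]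
      exact hπm
    have hne : m.under K[X] ≠ ⊤ := (Ideal.IsPrime.under K[X] m).ne_top
    exact hpmax.eq_of_le hne hle
  let _ : Algebra (Localization.AtPrime (Ideal.span {(X : K[X])})) (Localization.AtPrime m) :=
    Localization.AtPrime.algebraOfLiesOver (Ideal.span {(X : K[X])}) m
  have hunr : Algebra.IsUnramifiedAt K[X] m := by
    rw [Algebra.isUnramifiedAt_iff_map_eq K[X] (Ideal.span {(X : K[X])}) m]
    constructor
    · rw [Algebra.isSeparable_residueField_iff]
      have hsurj : Function.Surjective
          (algebraMap (K[X] ⧸ Ideal.span {(X : K[X])}) (Bt ⧸ m)) := by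
        intro y
        obtain ⟨b, rfl⟩ := Ideal.Quotient.mk_surjective y
        obtain ⟨c, hc⟩ := UFD.exists_sub_algebraMap_mem_of_isMaximal K Bt m b
        refine ⟨Ideal.Quotient.mk _ (C c), ?_⟩
        rw [Ideal.Quotient.algebraMap_mk_of_liesOver, halg, Polynomial.aeval_C, eq_comm,
          Ideal.Quotient.eq]
        exact hc
      let _ : Field (K[X] ⧸ Ideal.span {(X : K[X])}) := Ideal.Quotient.field _
      let _ : Field (Bt ⧸ m) := Ideal.Quotient.field _
      constructor
      intro y
      obtain ⟨z, rfl⟩ := hsurj y
      exact isSeparable_algebraMap z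
    · rw [Ideal.map_span, Set.image_singleton, ← hπ]
      congr 2
      rw [IsScalarTower.algebraMap_apply K[X] Bt (Localization.AtPrime m), halg,
        Polynomial.aeval_X]
  have het : Algebra.IsEtaleAt K[X] m := Algebra.IsEtaleAt.of_isUnramifiedAt_of_flat m
  have hsm1 : Algebra.FormallySmooth K[X] (Localization.AtPrime m) := inferInstance
  exact Algebra.FormallySmooth.comp K K[X] (Localization.AtPrime m)

/-- **A normal affine curve over an algebraically closed field is smooth.** -/
theorem smooth_of_isDedekindDomain (hB : ¬ IsField Bt) : Algebra.Smooth K Bt := by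
  have hfp : Algebra.FinitePresentation K Bt :=
    Algebra.FinitePresentation.of_finiteType.mp inferInstance
  have hloc : Algebra.smoothLocus K Bt = Set.univ := by
    rw [Set.eq_univ_iff_forall]
    intro p
    obtain ⟨m, hm, hpm⟩ := Ideal.exists_le_maximal p.asIdeal p.isPrime.ne_top
    have hmem : (⟨m, hm.isPrime⟩ : PrimeSpectrum Bt) ∈ Algebra.smoothLocus K Bt :=
      isSmoothAt_of_isMaximal hB m
    have hspec : p ⤳ (⟨m, hm.isPrime⟩ : PrimeSpectrum Bt) :=
      (PrimeSpectrum.le_iff_specializes _ _).mp hpm
    exact hspec.mem_open Algebra.isOpen_smoothLocus hmem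
  exact ⟨Algebra.smoothLocus_eq_univ_iff.mp hloc, hfp⟩

end Smooth

end Fermat.Agent.S26lib.Curves
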