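import Mathlib
import Fermat.Agent.S26lib.Curves.FiniteNormalization
import Fermat.Agent.S26lib.Curves.SmoothDedekind

/-!
# The affine charts of the normalisation of a curve

`A` a finitely generated algebra over the algebraically closed field `K`, `L` a field which is
"the fraction field of the image of `A`" and has transcendence degree one over `K`.  Then the
integral closure `R̃` of `A` in `L` is a finite `A`-module, a Dedekind domain which is not a field,
`L` is its fraction field, and `R̃` is smooth over `K`.
-/

namespace Fermat.Agent.S26lib.Curves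

open Polynomial

universe u

section Span

/-- Change of rings for spans when every scalar of `R` acts like some scalar of `R'`. -/
theorem span_subset_span_of_forall_smul {R R' M : Type*} [Semiring R] [Semiring R']
    [AddCommMonoid M] [Module R M] [Module R' M]
    (h : ∀ r : R, ∃ r' : R', ∀ m : M, r • m = r' • m) (S : Set M) :
    (Submodule.span R S : Set M) ⊆ Submodule.span R' S := by
  intro x hx
  induction hx using Submodule.span_induction with
  | mem x hx => exact Submodule.subset_span hx
  | zero => exact Submodule.zero_mem _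
  | add x y _ _ hx hy => exact Submodule.add_mem _ hx hy
  | smul r x _ hx =>
    obtain ⟨r', hr'⟩ := h r
    rw [hr']
    exact Submodule.smul_mem _ _ hx

end Span

section Trdeg

/-- A field which is algebraic over an injective image of `K[T]` has transcendence degree one. -/
theorem trdeg_eq_one_of_algebraic_polynomial {K L : Type u} [Field K] [Field L] [Algebra K L]
    (ψ : K[X] →ₐ[K] L) (hinj : Function.Injective ψ)
    (halg : ∀ x : L, ∃ p : K[X][X], p ≠ 0 ∧ p.eval₂ ψ.toRingHom x = 0) :
    Algebra.trdeg K L = 1 := by
  let _ : Algebra K[X] L := ψ.toRingHom.toAlgebra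
  have hT : IsScalarTower K K[X] L := IsScalarTower.of_algebraMap_eq (fun c => by
    change algebraMap K L c = ψ (algebraMap K K[X] c)
    rw [AlgHom.commutes])
  have hf1 : FaithfulSMul K[X] L := (faithfulSMul_iff_algebraMap_injective _ _).mpr hinj
  have hA : Algebra.IsAlgebraic K[X] L := by
    constructor
    intro x
    obtain ⟨p, hp0, hp⟩ := halg x
    exact ⟨p, hp0, by rw [Polynomial.aeval_def]; exact hp⟩
  have h1 := lift_trdeg_add_eq K K[X] L
  rw [Polynomial.trdeg_of_isDomain, _root_.trdeg_eq_zero] at h1
  simpa using h1.symm

/-- If `L` is "the fraction field of `A ⧸ q`" and `A ⧸ q` is an integral extension of `K[T]`, then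
`L` has transcendence degree one over `K`. -/
theorem trdeg_eq_one_of_hgen {K A L : Type u} [Field K] [CommRing A] [Algebra K A] [Field L]
    [Algebra K L] [Algebra A L] [IsScalarTower K A L]
    (hgen : ∀ x : L, ∃ a b : A, algebraMap A L b ≠ 0 ∧ x * algebraMap A L b = algebraMap A L a)
    (q : Ideal A) (hq : ∀ a, algebraMap A L a = 0 ↔ a ∈ q)
    (φ : K[X] →ₐ[K] A ⧸ q) (hinj : Function.Injective φ) (hint : φ.toRingHom.IsIntegral) :
    Algebra.trdeg K L = 1 := by
  let ρb : A ⧸ q →ₐ[K] L :=
    Ideal.Quotient.liftₐ q (IsScalarTower.toAlgHom K A L) (fun a ha => (hq a).mpr ha)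
  have hρb : ∀ a : A, ρb (Ideal.Quotient.mk q a) = algebraMap A L a := fun _ => rfl
  have hρbinj : Function.Injective ρb := by
    rw [injective_iff_map_eq_zero]
    intro y hy
    obtain ⟨a, rfl⟩ := Ideal.Quotient.mk_surjective y
    rw [hρb] at hy
    exact Ideal.Quotient.eq_zero_iff_mem.mpr ((hq a).mp hy)
  refine trdeg_eq_one_of_algebraic_polynomial (ρb.comp φ) (hρbinj.comp hinj) ?_
  intro x
  let _ : Algebra K[X] L := (ρb.comp φ).toRingHom.toAlgebra
  have hintL : ∀ a : A, IsIntegral K[X] (algebraMap A L a) := by
    intro a
    obtain ⟨P, hPm, hP⟩ := hint (Ideal.Quotient.mk q a)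
    refine ⟨P, hPm, ?_⟩
    have h3 := Polynomial.hom_eval₂ P φ.toRingHom ρb.toRingHom (Ideal.Quotient.mk q a)
    rw [hP, map_zero] at h3
    exact h3.symm
  obtain ⟨a, b, hb, hab⟩ := hgen x
  have hx : x = algebraMap A L a * (algebraMap A L b)⁻¹ := by
    rw [eq_mul_inv_iff_mul_eq₀ hb]
    exact hab
  have halgx : IsAlgebraic K[X] x := by
    rw [hx]
    exact (hintL a).isAlgebraic.mul (hintL b).isAlgebraic.inv
  obtain ⟨p, hp0, hp⟩ := halgx
  exact ⟨p, hp0, by rw [← hp, Polynomial.aeval_def]; rfl⟩

end Trdeg

section Noether

variable {K : Type u} [Field K] {B' : Type u} [CommRing B'] [IsDomain B'] [Algebra K B']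
  [Algebra.FiniteType K B'] {L : Type u} [Field L] [Algebra K L] [Algebra B' L]
  [IsScalarTower K B' L] [IsFractionRing B' L]

/-- Noether normalisation of a one-dimensional affine domain: a finitely generated `K`-domain whose
fraction field has transcendence degree one is an integral extension of `K[T]`. -/
theorem exists_integral_inj_polynomial (htr : Algebra.trdeg K L = 1) :
    ∃ φ : K[X] →ₐ[K] B', Function.Injective φ ∧ φ.toRingHom.IsIntegral := by
  obtain ⟨s, g, hginj, hgint⟩ := exists_integral_inj_algHom_of_fg K B'
  have hs : s = 1 := by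
    let _ : Algebra (MvPolynomial (Fin s) K) B' := g.toRingHom.toAlgebra
    have hT1 : IsScalarTower K (MvPolynomial (Fin s) K) B' :=
      IsScalarTower.of_algebraMap_eq (fun c => (g.commutes c).symm)
    let _ : Algebra (MvPolynomial (Fin s) K) L :=
      ((algebraMap B' L).comp (algebraMap (MvPolynomial (Fin s) K) B')).toAlgebra
    have hT2 : IsScalarTower (MvPolynomial (Fin s) K) B' L :=
      IsScalarTower.of_algebraMap_eq (fun _ => rfl)
    have hT3 : IsScalarTower K (MvPolynomial (Fin s) K) L :=
      IsScalarTower.of_algebraMap_eq (fun c => by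
        rw [IsScalarTower.algebraMap_apply (MvPolynomial (Fin s) K) B' L,
          ← IsScalarTower.algebraMap_apply K (MvPolynomial (Fin s) K) B',
          ← IsScalarTower.algebraMap_apply K B' L])
    have hinjL : Function.Injective (algebraMap (MvPolynomial (Fin s) K) L) :=
      (IsFractionRing.injective B' L).comp hginj
    have hf : FaithfulSMul (MvPolynomial (Fin s) K) L :=
      (faithfulSMul_iff_algebraMap_injective _ _).mpr hinjL
    have hint : Algebra.IsIntegral (MvPolynomial (Fin s) K) B' := ⟨hgint⟩
    have halg1 : Algebra.IsAlgebraic (MvPolynomial (Fin s) K) B' := inferInstance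
    have halg2 : Algebra.IsAlgebraic B' L := IsLocalization.isAlgebraic L (nonZeroDivisors B')
    have halg : Algebra.IsAlgebraic (MvPolynomial (Fin s) K) L :=
      Algebra.IsAlgebraic.trans (MvPolynomial (Fin s) K) B' L
    have h1 := lift_trdeg_add_eq K (MvPolynomial (Fin s) K) L
    rw [MvPolynomial.trdeg_of_isDomain, _root_.trdeg_eq_zero, htr] at h1
    have h2 : (s : Cardinal.{u}) = 1 := by simpa using h1
    exact_mod_cast h2
  subst hs
  refine ⟨g.comp (MvPolynomial.uniqueAlgEquiv K (Fin 1)).symm.toAlgHom, ?_, ?_⟩
  · exact hginj.comp (MvPolynomial.uniqueAlgEquiv K (Fin 1)).symm.injective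
  · exact RingHom.IsIntegral.trans _ _
      (RingHom.isIntegral_of_surjective _ (MvPolynomial.uniqueAlgEquiv K (Fin 1)).symm.surjective)
      hgint

end Noether

section Chart

variable {K : Type u} [Field K] [IsAlgClosed K] {A : Type u} [CommRing A] [Algebra K A]
  [Algebra.FiniteType K A] {L : Type u} [Field L] [Algebra K L] [Algebra A L] [IsScalarTower K A L]

/-- **The affine chart of the normalised curve.** -/
theorem chart_main
    (hgen : ∀ x : L, ∃ a b : A, algebraMap A L b ≠ 0 ∧ x * algebraMap A L b = algebraMap A L a)
    (htr : Algebra.trdeg K L = 1) :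
    Module.Finite A (integralClosure A L) ∧ IsDedekindDomain (integralClosure A L) ∧
      ¬ IsField (integralClosure A L) ∧ IsFractionRing (integralClosure A L) L ∧
      Algebra.Smooth K (integralClosure A L) := by
  -- the image `B'` of `A` in `L`
  let ρ : A →ₐ[K] L := IsScalarTower.toAlgHom K A L
  have hρ : ∀ a, ρ a = algebraMap A L a := fun _ => rfl
  have hB'ft : Algebra.FiniteType K ρ.range :=
    Algebra.FiniteType.of_surjective ρ.rangeRestrict ρ.rangeRestrict_surjective
  have hfracB : IsFractionRing ρ.range L := IsFractionRing.of_field ρ.range L (fun z => by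
    obtain ⟨a, b, hb, hab⟩ := hgen z
    refine ⟨⟨ρ a, a, rfl⟩, ⟨ρ b, b, rfl⟩, ?_⟩
    rw [eq_div_iff (by exact hb)]
    exact hab)
  obtain ⟨φ, hφinj, hφint⟩ := exists_integral_inj_polynomial (K := K) (B' := ρ.range) (L := L) htr
  -- `K[T]`-structure on `B'`
  let _ : Algebra K[X] ρ.range := φ.toRingHom.toAlgebra
  have hTKB : IsScalarTower K K[X] ρ.range :=
    IsScalarTower.of_algebraMap_eq (fun c => (φ.commutes c).symm)
  have hfaith : FaithfulSMul K[X] ρ.range := (faithfulSMul_iff_algebraMap_injective _ _).mpr hφinj
  have hintB : Algebra.IsIntegral K[X] ρ.range := ⟨hφint⟩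
  have hftB : Algebra.FiniteType K[X] ρ.range :=
    Algebra.FiniteType.of_restrictScalars_finiteType K K[X] ρ.range
  have hfinB : Module.Finite K[X] ρ.range := Algebra.IsIntegral.finite
  have H : Module.Finite ρ.range (integralClosure ρ.range L) :=
    finite_integralClosure_of_finite_polynomial K L
  -- `A`-structure on `B'`
  let _ : Algebra A ρ.range := ρ.rangeRestrict.toRingHom.toAlgebra
  have hTAB : IsScalarTower A ρ.range L := IsScalarTower.of_algebraMap_eq (fun _ => rfl)
  have hintAB : Algebra.IsIntegral A ρ.range :=
    Algebra.isIntegral_of_surjective ρ.rangeRestrict_surjective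
  have hcar : ∀ y : L, y ∈ integralClosure ρ.range L ↔ y ∈ integralClosure A L := by
    intro y
    constructor
    · intro hy
      exact isIntegral_trans (R := A) (A := ρ.range) y hy
    · intro hy
      exact IsIntegral.tower_top (R := A) (A := ρ.range) hy
  -- (1) finiteness
  have hfin : Module.Finite A (integralClosure A L) := by
    have hfg : (Subalgebra.toSubmodule (integralClosure ρ.range L)).FG := Module.Finite.iff_fg.mp H
    obtain ⟨S, hS⟩ := hfg
    suffices h : (Subalgebra.toSubmodule (integralClosure A L)).FG from Module.Finite.iff_fg.mpr h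
    refine ⟨S, le_antisymm ?_ ?_⟩
    · rw [Submodule.span_le]
      intro y hy
      have : y ∈ Submodule.span ρ.range (S : Set L) := Submodule.subset_span hy
      rw [hS] at this
      exact (hcar y).mp this
    · intro y hy
      have h1 : y ∈ Subalgebra.toSubmodule (integralClosure ρ.range L) := (hcar y).mpr hy
      rw [← hS] at h1
      refine span_subset_span_of_forall_smul (R := ρ.range) (R' := A) ?_ _ h1
      rintro ⟨_, a, rfl⟩
      refine ⟨a, fun m => ?_⟩
      rw [Algebra.smul_def, Algebra.smul_def]
      rfl
  -- (2) fraction field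
  have hfrac : IsFractionRing (integralClosure A L) L :=
    IsFractionRing.of_field (integralClosure A L) L (fun z => by
      obtain ⟨a, b, hb, hab⟩ := hgen z
      refine ⟨algebraMap A (integralClosure A L) a, algebraMap A (integralClosure A L) b, ?_⟩
      rw [← IsScalarTower.algebraMap_apply, ← IsScalarTower.algebraMap_apply, eq_div_iff hb]
      exact hab)
  -- (3) integrally closed
  have hclosed : IsIntegrallyClosed (integralClosure A L) := by
    rw [isIntegrallyClosed_iff L]
    intro x hx
    have hx' : IsIntegral A x := isIntegral_trans (R := A) (A := integralClosure A L) x hx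
    exact ⟨⟨x, hx'⟩, rfl⟩
  -- (4) finite type over `K`
  have hft : Algebra.FiniteType K (integralClosure A L) :=
    Algebra.FiniteType.trans (S := A) inferInstance inferInstance
  -- (5) the polynomial subring
  have hmem : ∀ p : K[X], ((φ p : ρ.range) : L) ∈ integralClosure A L := by
    intro p
    obtain ⟨a, ha⟩ := (φ p).2
    rw [← ha]
    exact Subalgebra.algebraMap_mem _ a
  let φt : K[X] →ₐ[K] integralClosure A L :=
    { toFun := fun p => ⟨((φ p : ρ.range) : L), hmem p⟩
      map_one' := by ext; simp
      map_mul' := fun p q => by ext; simp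
      map_zero' := by ext; simp
      map_add' := fun p q => by ext; simp
      commutes' := fun c => by
        ext
        change ((φ (algebraMap K K[X] c) : ρ.range) : L) = algebraMap K L c
        rw [φ.commutes]
        rfl }
  have hφt : ∀ p, ((φt p : integralClosure A L) : L) = ((φ p : ρ.range) : L) := fun _ => rfl
  have hφtinj : Function.Injective φt := by
    intro p q hpq
    apply hφinj
    apply Subtype.ext
    rw [← hφt, ← hφt, hpq]
  have hφtint : φt.toRingHom.IsIntegral := by
    intro y
    have hy : IsIntegral A (y : L) := y.2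
    have hy1 : IsIntegral ρ.range (y : L) := IsIntegral.tower_top (R := A) (A := ρ.range) hy
    let _ : Algebra K[X] L := ((algebraMap ρ.range L).comp (algebraMap K[X] ρ.range)).toAlgebra
    have hT : IsScalarTower K[X] ρ.range L := IsScalarTower.of_algebraMap_eq (fun _ => rfl)
    have hy2 : IsIntegral K[X] (y : L) := isIntegral_trans (R := K[X]) (A := ρ.range) _ hy1
    obtain ⟨P, hPm, hP⟩ := hy2
    refine ⟨P, hPm, ?_⟩
    apply Subtype.ext
    have h3 := Polynomial.hom_eval₂ P φt.toRingHom (integralClosure A L).val.toRingHom y
    have h4 : (integralClosure A L).val.toRingHom.comp φt.toRingHom = algebraMap K[X] L := rfl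
    rw [h4] at h3
    exact h3.trans hP
  have hded : IsDedekindDomain (integralClosure A L) :=
    isDedekindDomain_of_integral_polynomial φt hφtint
  have hnf : ¬ IsField (integralClosure A L) :=
    not_isField_of_integral_polynomial φt hφtinj hφtint
  exact ⟨hfin, hded, hnf, hfrac, smooth_of_isDedekindDomain hnf⟩

end Chart

section ChartIsField

variable {K A : Type u} [Field K] [IsAlgClosed K] [CommRing A] [Algebra K A]
  [Algebra.FiniteType K A] {L : Type u} [CommRing L] [Algebra K L] [Algebra A L]
  [IsScalarTower K A L]

/-- `chart_main` for a commutative ring `L` which happens to be a field. -/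
theorem chart_main_of_isField (hL : IsField L)
    (hgen : ∀ x : L, ∃ a b : A, algebraMap A L b ≠ 0 ∧ x * algebraMap A L b = algebraMap A L a)
    (htr : Algebra.trdeg K L = 1) :
    Module.Finite A (integralClosure A L) ∧ IsDedekindDomain (integralClosure A L) ∧
      ¬ IsField (integralClosure A L) ∧ IsFractionRing (integralClosure A L) L ∧
      Algebra.Smooth K (integralClosure A L) := by
  let _ : Field L := hL.toField
  exact chart_main hgen htr

end ChartIsField

end Fermat.Agent.S26lib.Curves
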