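/-
S26lib / Curves / TwistComp  (helper8)  --  Project K (S26), cube kernel, (LIFT): the leaf (TWC)

**Comparison of `𝔏 = McDiv τ d₀` with its twist `𝔏' = McDiv τ (d₀ / [p])`** by a zero `p` of the
coordinate `x` of a chart pair (`RelCurve.TwistCompStatement`):
the local equations of `𝔏'` are those of `𝔏` divided by `ρ^*([p].t (ρ y))`, which is `1` away from
the fibre `ρ⁻¹ p` and `ρ^*(ϖ_p)` on it.
-/
import Fermat.Agent.S26lib.RelCurve.Targets

set_option autoImplicit false
set_option linter.unusedSectionVars false
set_option linter.style.haveILetI false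

noncomputable section

namespace Fermat.Agent.S26lib.Curves

open AlgebraicGeometry CategoryTheory CategoryTheory.Limits TopologicalSpace
  Fermat.Agent.S26lib.Quad Fermat.Agent.S26lib.Hub Fermat.Agent.S26lib.Prod
  Fermat.Agent.S26lib.Weil Fermat.Agent.S26lib.Aff Fermat.Agent.S26lib.RelCurve

universe u

variable {K : Type u} [Field K] {C T : Scheme.{u}}
  (sC : C ⟶ Spec (CommRingCat.of K)) (sT : T ⟶ Spec (CommRingCat.of K))
  [IsIntegral C] [IsIntegral T] [IsIntegral (pullback sC sT)] [IsLocallyNoetherian C]

attribute [local instance] Quad.surjective_toSpecField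

section Twist

variable (hreg : ∀ c : C, c = genericPoint C ∨ IsDiscreteValuationRing (C.presheaf.stalk c))
  [CompactSpace C]

/-- the local equations of the pull-back of a point divisor along the first projection -/
theorem pull_fst_pointDiv_t (p : PrimeDiv C) (y : ↥(pullback sC sT)) :
    (((CDiv.pull (pullback.fst sC sT) (pointDiv hreg p)).t y :
        ((pullback sC sT).functionField)ˣ) : (pullback sC sT).functionField) =
      FinMap.ffMap (pullback.fst sC sT)
        (((pointDiv hreg p).t (pullback.fst sC sT y) : (C.functionField)ˣ) : C.functionField) := by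
  rw [CDiv.pull_t_of_dominant, FinMap.map_genericPoint (pullback.fst sC sT),
    pointDiv_t_generic, Units.val_one, map_one, div_one]

/-- the local equations of the twisted divisor -/
theorem McDiv_div_pointDiv_t (τ : CDiv (pullback sC sT)) (d₀ : CDiv C) (p : PrimeDiv C)
    (y : ↥(pullback sC sT)) :
    (((McDiv sC sT τ (d₀ / pointDiv hreg p)).t y : ((pullback sC sT).functionField)ˣ) :
        (pullback sC sT).functionField) =
      (((McDiv sC sT τ d₀).t y : ((pullback sC sT).functionField)ˣ) :
        (pullback sC sT).functionField) /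
      FinMap.ffMap (pullback.fst sC sT)
        (((pointDiv hreg p).t (pullback.fst sC sT y) : (C.functionField)ˣ) : C.functionField) := by
  unfold McDiv
  rw [map_div, CDiv.mul_t, CDiv.div_t, CDiv.mul_t, Units.val_mul, Units.val_div_eq_div_val,
    Units.val_mul, pull_fst_pointDiv_t, mul_div_assoc]

/-- away from the fibre over `p` the twist does not change the local equation -/
theorem McDiv_div_pointDiv_t_of_ne (τ : CDiv (pullback sC sT)) (d₀ : CDiv C) (p : PrimeDiv C)
    {y : ↥(pullback sC sT)} (hy : pullback.fst sC sT y ≠ p.1) :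
    (McDiv sC sT τ (d₀ / pointDiv hreg p)).t y = (McDiv sC sT τ d₀).t y := by
  apply Units.ext
  rw [McDiv_div_pointDiv_t, pointDiv_t_of_ne hreg p hy, Units.val_one, map_one, div_one]

/-- on the fibre over `p` the twist divides the local equation by the uniformiser -/
theorem McDiv_div_pointDiv_t_of_eq (τ : CDiv (pullback sC sT)) (d₀ : CDiv C) (p : PrimeDiv C)
    {y : ↥(pullback sC sT)} (hy : pullback.fst sC sT y = p.1) :
    (((McDiv sC sT τ (d₀ / pointDiv hreg p)).t y : ((pullback sC sT).functionField)ˣ) :
        (pullback sC sT).functionField) =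
      (((McDiv sC sT τ d₀).t y : ((pullback sC sT).functionField)ˣ) :
        (pullback sC sT).functionField) /
      FinMap.ffMap (pullback.fst sC sT) ((unif p : (C.functionField)ˣ) : C.functionField) := by
  rw [McDiv_div_pointDiv_t, hy, pointDiv_t_self]

end Twist

section Reg

variable {x : C.functionField}

/-- the coordinate of a chart pair is regular on the first chart -/
theorem ChartPair_x_mem_regAt (hC : ChartPair sC x) {c : C} (hc : c ∈ hC.U₁) : x ∈ regAt C c :=
  ⟨C.presheaf.germ hC.U₁ c hc hC.x₁, by
    rw [toFF_germ_eq hC.U₁ hc hC.generic_mem₁, toFF_generic, hC.germ_x₁]⟩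

/-- a uniformiser is regular at its point -/
theorem unif_mem_regAt (p : PrimeDiv C) :
    ((unif p : (C.functionField)ˣ) : C.functionField) ∈ regAt C p.1 :=
  (ordAt_nonneg_iff p (unif p).ne_zero).mp (by rw [ordAt_unif]; exact zero_le_one)

/-- a function vanishing at `p` is divisible by the uniformiser -/
theorem div_unif_mem_regAt (p : PrimeDiv C) (hpx : 0 < ordAt p x) :
    x / ((unif p : (C.functionField)ˣ) : C.functionField) ∈ regAt C p.1 := by
  have hx0 : x ≠ 0 := by
    rintro rfl
    rw [ordAt_zero] at hpx
    exact lt_irrefl _ hpx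
  have hu0 : ((unif p : (C.functionField)ˣ) : C.functionField) ≠ 0 := (unif p).ne_zero
  refine (ordAt_nonneg_iff p (div_ne_zero hx0 hu0)).mp ?_
  rw [div_eq_mul_inv, ordAt_mul p hx0 (inv_ne_zero hu0), CurvePlace.ordAt_inv, ordAt_unif]
  omega

end Reg

section Main

variable (hreg : ∀ c : C, c = genericPoint C ∨ IsDiscreteValuationRing (C.presheaf.stalk c))
  [CompactSpace C]

/-- **(TWC)** -/
theorem twistCompStatement (τ : CDiv (pullback sC sT)) (t : KPt sT) {x : C.functionField}
    (hC : ChartPair sC x) (d₀ : CDiv C) (p : PrimeDiv C) (hpx : 0 < ordAt p x) :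
    TwistCompStatement sC sT hreg τ t hC d₀ p := by
  have hp₂ : p.1 ∉ hC.U₂ := fun h => absurd ((hC.mem₂_iff p).mp h) (not_le.mpr hpx)
  have hηp : genericPoint C ≠ p.1 :=
    (VarSch.ne_generic_of_coheight_eq_one (coheight_primeDiv p)).symm
  unfold TwistCompStatement
  refine ⟨?_, ?_, ?_, ?_⟩
  · funext h
    unfold rhoS
    rw [McDiv_div_pointDiv_t_of_ne sC sT hreg τ d₀ p]
    unfold eta0
    rw [fst_sliceL_apply]
    exact hηp
  · refine SetLike.ext fun h => ?_
    rw [mem_LamV_iff, mem_LamV_iff]
    have key : ∀ y : ↥(pullback sC sT), pullback.fst sC sT y ∈ hC.U₂ →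
        (McDiv sC sT τ (d₀ / pointDiv hreg p)).t y = (McDiv sC sT τ d₀).t y := fun y hy =>
      McDiv_div_pointDiv_t_of_ne sC sT hreg τ d₀ p (fun h => hp₂ (h ▸ hy))
    constructor
    · intro hh y hy hyt
      rw [← key y hy]
      exact hh y hy hyt
    · intro hh y hy hyt
      rw [key y hy]
      exact hh y hy hyt
  · intro h hh
    rw [mem_LamV_iff] at hh ⊢
    intro y hy hyt
    by_cases hyp : pullback.fst sC sT y = p.1
    · have h1 := hh y hy hyt
      rw [McDiv_div_pointDiv_t_of_eq sC sT hreg τ d₀ p hyp] at h1
      have h2 : FinMap.ffMap (pullback.fst sC sT)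
          ((unif p : (C.functionField)ˣ) : C.functionField) ∈ regAt (pullback sC sT) y :=
        RatFam.ffMap_mem_regAt (pullback.fst sC sT) (by rw [hyp]; exact unif_mem_regAt p)
      have h3 := Subring.mul_mem _ h1 h2
      have hne : FinMap.ffMap (pullback.fst sC sT)
          ((unif p : (C.functionField)ˣ) : C.functionField) ≠ 0 :=
        (map_ne_zero _).mpr (unif p).ne_zero
      rw [← mul_div_assoc, div_mul_cancel₀ _ hne] at h3
      exact h3
    · rw [← McDiv_div_pointDiv_t_of_ne sC sT hreg τ d₀ p hyp]
      exact hh y hy hyt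
  · intro h hh
    rw [mem_LamV_iff] at hh ⊢
    intro y hy hyt
    have h1 := hh y hy hyt
    by_cases hyp : pullback.fst sC sT y = p.1
    · rw [McDiv_div_pointDiv_t_of_eq sC sT hreg τ d₀ p hyp]
      have h2 : FinMap.ffMap (pullback.fst sC sT)
          (x / ((unif p : (C.functionField)ˣ) : C.functionField)) ∈ regAt (pullback sC sT) y :=
        RatFam.ffMap_mem_regAt (pullback.fst sC sT) (by rw [hyp]; exact div_unif_mem_regAt p hpx)
      have h3 := Subring.mul_mem _ h2 h1
      rw [map_div₀] at h3
      have e : FinMap.ffMap (pullback.fst sC sT) x * h *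
          ((((McDiv sC sT τ d₀).t y : ((pullback sC sT).functionField)ˣ) :
            (pullback sC sT).functionField) /
          FinMap.ffMap (pullback.fst sC sT) ((unif p : (C.functionField)ˣ) : C.functionField)) =
          FinMap.ffMap (pullback.fst sC sT) x /
            FinMap.ffMap (pullback.fst sC sT) ((unif p : (C.functionField)ˣ) : C.functionField) *
          (h * (((McDiv sC sT τ d₀).t y : ((pullback sC sT).functionField)ˣ) :
            (pullback sC sT).functionField)) := by
        ring
      rw [e]
      exact h3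
    · rw [McDiv_div_pointDiv_t_of_ne sC sT hreg τ d₀ p hyp, mul_assoc]
      exact Subring.mul_mem _
        (RatFam.ffMap_mem_regAt (pullback.fst sC sT) (ChartPair_x_mem_regAt sC hC hy)) h1

end Main

end Fermat.Agent.S26lib.Curves
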