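import Mathlib

/-!
# Curves through a point: the commutative algebra core

`B` a finitely generated domain over an algebraically closed field `K`, not a field, `m` a
maximal ideal, `f ≠ 0`.  Then there is a prime `q ≤ m` with `f ∉ q` such that `B ⧸ q` is an
integral extension of a polynomial ring `K[T]` (so `B ⧸ q` is the coordinate ring of an affine
curve through the point `m`, not contained in `V(f)`).

Proof: Noether normalisation `P = K[x₁..x_s] ↪ B`; a nonzero `h ∈ fB ∩ P`; the point
`a = m ∩ P` (Nullstellensatz); a point `b` with `h(b)(b₁ - a₁) ≠ 0`; the line `l` through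
`a` and `b` (kernel of `P → K[T]`); going-down for the integral extension `P ⊆ B` of the
integrally closed domain `P`.
-/

namespace Fermat.Agent.S26lib.Curves

open Polynomial

universe u v

section Line

variable {K : Type u} [Field K] {σ : Type v}

/-- The parametrised line `T ↦ a + (b - a) T` as an algebra homomorphism. -/
noncomputable def lineHom (a b : σ → K) : MvPolynomial σ K →ₐ[K] K[X] :=
  MvPolynomial.aeval fun i => C (a i) + C (b i - a i) * X

@[simp]
theorem lineHom_X (a b : σ → K) (i : σ) :
    lineHom a b (MvPolynomial.X i) = C (a i) + C (b i - a i) * X := by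
  simp [lineHom]

@[simp]
theorem lineHom_C (a b : σ → K) (c : K) :
    lineHom a b (MvPolynomial.C c) = C c := by
  simp [lineHom]

theorem eval_lineHom (a b : σ → K) (t : K) (p : MvPolynomial σ K) :
    (lineHom a b p).eval t = MvPolynomial.eval (fun i => a i + (b i - a i) * t) p := by
  have : (Polynomial.evalRingHom t).comp (lineHom a b : MvPolynomial σ K →+* K[X]) =
      MvPolynomial.eval (fun i => a i + (b i - a i) * t) := by
    apply MvPolynomial.ringHom_ext
    · intro c
      simp
    · intro i
      simp
  exact congrArg (fun φ : MvPolynomial σ K →+* K => φ p) this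

theorem eval_zero_lineHom (a b : σ → K) (p : MvPolynomial σ K) :
    (lineHom a b p).eval 0 = MvPolynomial.eval a p := by
  rw [eval_lineHom]
  have : (fun i => a i + (b i - a i) * 0) = a := by funext i; simp
  rw [this]

theorem eval_one_lineHom (a b : σ → K) (p : MvPolynomial σ K) :
    (lineHom a b p).eval 1 = MvPolynomial.eval b p := by
  rw [eval_lineHom]
  have : (fun i => a i + (b i - a i) * 1) = b := by funext i; simp
  rw [this]

theorem lineHom_surjective (a b : σ → K) (i : σ) (hi : b i ≠ a i) :
    Function.Surjective (lineHom a b) := by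
  have hi' : b i - a i ≠ 0 := sub_ne_zero.mpr hi
  have hX : (X : K[X]) ∈ (lineHom a b).range := by
    refine ⟨MvPolynomial.C (b i - a i)⁻¹ * (MvPolynomial.X i - MvPolynomial.C (a i)), ?_⟩
    change lineHom a b _ = _
    rw [map_mul, map_sub, lineHom_X, lineHom_C, lineHom_C, add_sub_cancel_left, ← mul_assoc,
      ← C_mul, inv_mul_cancel₀ hi', C_1, one_mul]
  have htop : (lineHom a b).range = ⊤ := by
    rw [eq_top_iff, ← Polynomial.adjoin_X]
    exact Algebra.adjoin_le (by simpa using hX)
  intro p
  have hp : p ∈ (lineHom a b).range := htop ▸ Algebra.mem_top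
  exact hp

end Line

section Main

variable {K : Type u} [Field K] [IsAlgClosed K] {B : Type v} [CommRing B] [IsDomain B]
  [Algebra K B] [Algebra.FiniteType K B]

/-- **Curves through a point, algebraic core.**  `B` a finitely generated domain over the
algebraically closed field `K`, not a field, `m` maximal, `f ≠ 0`: there is a prime `q ≤ m`
not containing `f` such that `B ⧸ q` is an integral extension of `K[T]`. -/
theorem exists_prime_le_integral_polynomial (hB : ¬ IsField B) (m : Ideal B) [hm : m.IsMaximal]
    {f : B} (hf : f ≠ 0) :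
    ∃ q : Ideal B, q.IsPrime ∧ q ≤ m ∧ f ∉ q ∧
      ∃ φ : K[X] →ₐ[K] B ⧸ q, Function.Injective φ ∧ φ.toRingHom.IsIntegral := by
  obtain ⟨s, g, hginj, hgint⟩ := exists_integral_inj_algHom_of_fg K B
  obtain _ | s := s
  · -- `B` would be integral over `K`, hence a field
    exfalso
    have hC : (MvPolynomial.C : K →+* MvPolynomial (Fin 0) K).IsIntegral :=
      RingHom.isIntegral_of_surjective _ (MvPolynomial.C_surjective (Fin 0))
    have hcomp : (algebraMap K B) = g.toRingHom.comp MvPolynomial.C := by
      ext c
      simp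
    have hKB : (algebraMap K B).IsIntegral := by
      rw [hcomp]
      exact RingHom.IsIntegral.trans _ _ hC hgint
    have : Algebra.IsIntegral K B := ⟨hKB⟩
    exact hB (isField_of_isIntegral_of_isField' (Field.toIsField K))
  let _ : Algebra (MvPolynomial (Fin (s + 1)) K) B := g.toRingHom.toAlgebra
  have hint : Algebra.IsIntegral (MvPolynomial (Fin (s + 1)) K) B := ⟨hgint⟩
  have hfaith : FaithfulSMul (MvPolynomial (Fin (s + 1)) K) B :=
    (faithfulSMul_iff_algebraMap_injective _ _).mpr hginj
  have halg : ∀ r, algebraMap (MvPolynomial (Fin (s + 1)) K) B r = g r := fun _ => rfl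
  -- a nonzero element of `P ∩ fB`
  have hspan : (Ideal.span {f}).comap (algebraMap (MvPolynomial (Fin (s + 1)) K) B) ≠ ⊥ := by
    intro h0
    have := Ideal.eq_bot_of_comap_eq_bot h0
    exact hf (Ideal.span_singleton_eq_bot.mp this)
  obtain ⟨h, hmem, hne⟩ := Submodule.exists_mem_ne_zero_of_ne_bot hspan
  -- the point `a`
  have hn : (m.comap (algebraMap (MvPolynomial (Fin (s + 1)) K) B)).IsMaximal :=
    Ideal.isMaximal_comap_of_isIntegral_of_isMaximal m
  obtain ⟨a, ha⟩ := MvPolynomial.isMaximal_iff_eq_vanishingIdeal_singleton.mp hn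
  -- the point `b`
  have hX0 : (MvPolynomial.X 0 - MvPolynomial.C (a 0) : MvPolynomial (Fin (s + 1)) K) ≠ 0 := by
    intro h0
    have h1 := congrArg (MvPolynomial.eval (fun _ => a 0 + 1)) h0
    simp at h1
  have hne' : h * (MvPolynomial.X 0 - MvPolynomial.C (a 0)) ≠ 0 := mul_ne_zero hne hX0
  obtain ⟨b, hb⟩ : ∃ b : Fin (s + 1) → K,
      MvPolynomial.eval b (h * (MvPolynomial.X 0 - MvPolynomial.C (a 0))) ≠ 0 := by
    by_contra hcon
    push Not at hcon
    exact hne' (MvPolynomial.funext (by simpa using hcon))
  rw [map_mul, mul_ne_zero_iff] at hb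
  obtain ⟨hb1, hb2⟩ := hb
  have hb0 : b 0 ≠ a 0 := by
    intro h0
    apply hb2
    simp [h0]
  -- the line
  have hsurj : Function.Surjective (lineHom a b) := lineHom_surjective a b 0 hb0
  have hlprime : (RingHom.ker (lineHom a b : MvPolynomial (Fin (s + 1)) K →+* K[X])).IsPrime :=
    RingHom.ker_isPrime _
  have hle : RingHom.ker (lineHom a b : MvPolynomial (Fin (s + 1)) K →+* K[X]) ≤
      m.comap (algebraMap (MvPolynomial (Fin (s + 1)) K) B) := by
    intro r hr
    rw [ha, MvPolynomial.mem_vanishingIdeal_singleton_iff, MvPolynomial.aeval_eq_eval,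
      ← eval_zero_lineHom a b]
    have : lineHom a b r = 0 := hr
    rw [this, Polynomial.eval_zero]
  have hhl : h ∉ RingHom.ker (lineHom a b : MvPolynomial (Fin (s + 1)) K →+* K[X]) := by
    intro hr
    have h0 : lineHom a b h = 0 := hr
    apply hb1
    rw [← eval_one_lineHom a b, h0, Polynomial.eval_zero]
  -- going down
  have hmover : m.LiesOver (m.comap (algebraMap (MvPolynomial (Fin (s + 1)) K) B)) := ⟨rfl⟩
  have hmprime : m.IsPrime := hm.isPrime
  have hnprime : (m.comap (algebraMap (MvPolynomial (Fin (s + 1)) K) B)).IsPrime := hn.isPrime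
  obtain ⟨q, hqm, hqprime, hqover⟩ := Ideal.exists_ideal_le_liesOver_of_le
    (p := RingHom.ker (lineHom a b : MvPolynomial (Fin (s + 1)) K →+* K[X]))
    (q := m.comap (algebraMap (MvPolynomial (Fin (s + 1)) K) B)) m hle
  have hqcomap : ∀ r : MvPolynomial (Fin (s + 1)) K, g r ∈ q ↔ lineHom a b r = 0 := by
    intro r
    have := hqover.over
    constructor
    · intro hr
      have : r ∈ q.under (MvPolynomial (Fin (s + 1)) K) := hr
      rw [← hqover.over] at this
      exact this
    · intro hr
      have : r ∈ RingHom.ker (lineHom a b : MvPolynomial (Fin (s + 1)) K →+* K[X]) := hr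
      rw [hqover.over] at this
      exact this
  refine ⟨q, hqprime, hqm, ?_, ?_⟩
  · intro hfq
    apply hhl
    have : g h ∈ q := by
      have h1 : algebraMap (MvPolynomial (Fin (s + 1)) K) B h ∈ Ideal.span {f} := hmem
      exact (Ideal.span_singleton_le_iff_mem (I := q)).mpr hfq h1
    exact (hqcomap h).mp this
  · -- the map `K[T] → B ⧸ q`
    let ψ : MvPolynomial (Fin (s + 1)) K →ₐ[K] B ⧸ q := (Ideal.Quotient.mkₐ K q).comp g
    have hψ : ∀ r, ψ r = Ideal.Quotient.mk q (g r) := fun _ => rfl
    have hker : ∀ r ∈ RingHom.ker (lineHom a b : MvPolynomial (Fin (s + 1)) K →+* K[X]),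
        ψ r = 0 := by
      intro r hr
      rw [hψ, Ideal.Quotient.eq_zero_iff_mem]
      exact (hqcomap r).mpr hr
    let φ : K[X] →ₐ[K] B ⧸ q :=
      (Ideal.Quotient.liftₐ _ ψ hker).comp
        (Ideal.quotientKerAlgEquivOfSurjective hsurj).symm.toAlgHom
    have hφ : ∀ r, φ (lineHom a b r) = Ideal.Quotient.mk q (g r) := by
      intro r
      have h1 : (Ideal.quotientKerAlgEquivOfSurjective hsurj).symm (lineHom a b r) =
          Ideal.Quotient.mk _ r := by
        rw [AlgEquiv.symm_apply_eq]
        rfl
      change (Ideal.Quotient.liftₐ _ ψ hker)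
        ((Ideal.quotientKerAlgEquivOfSurjective hsurj).symm (lineHom a b r)) = _
      rw [h1]
      rfl
    refine ⟨φ, ?_, ?_⟩
    · rw [injective_iff_map_eq_zero]
      intro p hp
      obtain ⟨r, rfl⟩ := hsurj p
      rw [hφ, Ideal.Quotient.eq_zero_iff_mem] at hp
      exact (hqcomap r).mp hp
    · have hcomp : (φ.toRingHom.comp (lineHom a b : MvPolynomial (Fin (s + 1)) K →+* K[X])) =
          (Ideal.Quotient.mk q).comp g.toRingHom := by
        apply MvPolynomial.ringHom_ext
        · intro c
          have h1 := hφ (MvPolynomial.C c)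
          simpa using h1
        · intro i
          exact hφ _
      have h1 : ((Ideal.Quotient.mk q).comp g.toRingHom).IsIntegral :=
        RingHom.IsIntegral.trans _ _ hgint
          (RingHom.isIntegral_of_surjective _ Ideal.Quotient.mk_surjective)
      rw [← hcomp] at h1
      exact RingHom.IsIntegral.tower_top _ _ h1

end Main

end Fermat.Agent.S26lib.Curves
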