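import Mathlib
import Fermat.Agent.S26lib.Curves.Line
import Fermat.Agent.S26lib.Curves.Chart

/-!
# Curves through a point: the generic point of the curve

`X` integral, locally of finite type over the algebraically closed field `K`, `o` a closed point
which is not the generic point, `Z ≠ X` closed.  Then there is a point `ξ` specialising to `o`,
outside `Z`, whose residue field has transcendence degree one over `K`.
-/

namespace Fermat.Agent.S26lib.Curves

open AlgebraicGeometry CategoryTheory Polynomial IsLocalRing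

universe u

variable {K : Type u} [Field K] {X : Scheme.{u}}

section Eval

/-- evaluation at `ξ ∈ U` vanishes exactly on the prime of `ξ`. -/
theorem evaluation_eq_zero_iff {U : X.Opens} (hU : IsAffineOpen U) (ξ : X) (hξ : ξ ∈ U)
    (a : Γ(X, U)) :
    (X.evaluation U ξ hξ).hom a = 0 ↔ a ∈ (hU.primeIdealOf ⟨ξ, hξ⟩).asIdeal := by
  let _ : Algebra Γ(X, U) (X.presheaf.stalk ξ) :=
    TopCat.Presheaf.algebra_section_stalk X.presheaf (⟨ξ, hξ⟩ : U)
  have hloc : IsLocalization.AtPrime (X.presheaf.stalk ξ) (hU.primeIdealOf ⟨ξ, hξ⟩).asIdeal :=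
    hU.isLocalization_stalk ⟨ξ, hξ⟩
  have h1 : (X.evaluation U ξ hξ).hom a = 0 ↔
      algebraMap Γ(X, U) (X.presheaf.stalk ξ) a ∈ maximalIdeal (X.presheaf.stalk ξ) :=
    IsLocalRing.residue_eq_zero_iff (algebraMap Γ(X, U) (X.presheaf.stalk ξ) a)
  rw [h1, IsLocalization.AtPrime.to_map_mem_maximal_iff (X.presheaf.stalk ξ)
      (hU.primeIdealOf ⟨ξ, hξ⟩).asIdeal]

/-- every element of the residue field is a quotient of two evaluations. -/
theorem exists_evaluation_mul_eq {U : X.Opens} (hU : IsAffineOpen U) (ξ : X) (hξ : ξ ∈ U)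
    (y : X.residueField ξ) :
    ∃ a b : Γ(X, U), (X.evaluation U ξ hξ).hom b ≠ 0 ∧
      y * (X.evaluation U ξ hξ).hom b = (X.evaluation U ξ hξ).hom a := by
  let _ : Algebra Γ(X, U) (X.presheaf.stalk ξ) :=
    TopCat.Presheaf.algebra_section_stalk X.presheaf (⟨ξ, hξ⟩ : U)
  have hloc : IsLocalization.AtPrime (X.presheaf.stalk ξ) (hU.primeIdealOf ⟨ξ, hξ⟩).asIdeal :=
    hU.isLocalization_stalk ⟨ξ, hξ⟩
  obtain ⟨s, rfl⟩ := IsLocalRing.residue_surjective (R := X.presheaf.stalk ξ) y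
  obtain ⟨a, b, hab⟩ := IsLocalization.exists_mk'_eq (hU.primeIdealOf ⟨ξ, hξ⟩).asIdeal.primeCompl s
  refine ⟨a, b, ?_, ?_⟩
  · rw [Ne, evaluation_eq_zero_iff hU]
    exact b.2
  · have h1 : s * algebraMap Γ(X, U) (X.presheaf.stalk ξ) b =
        algebraMap Γ(X, U) (X.presheaf.stalk ξ) a := by
      rw [← hab, IsLocalization.mk'_spec]
    have h2 := congrArg (IsLocalRing.residue (X.presheaf.stalk ξ)) h1
    rw [map_mul] at h2
    exact h2

end Eval

section KStructure

/-- The structure map `K → Γ(X, U)` of a `K`-scheme. -/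
noncomputable def kSec (f : X ⟶ Spec (CommRingCat.of K)) (U : X.Opens) : K →+* Γ(X, U) :=
  ((Scheme.ΓSpecIso (CommRingCat.of K)).inv ≫ f.appLE ⊤ U le_top).hom

/-- The structure map `K → κ(ξ)` of a point of a `K`-scheme. -/
noncomputable def kRes (f : X ⟶ Spec (CommRingCat.of K)) (ξ : X) : K →+* X.residueField ξ :=
  (X.evaluation ⊤ ξ trivial).hom.comp (kSec f ⊤)

theorem map_kSec (f : X ⟶ Spec (CommRingCat.of K)) {U V : X.Opens} (h : V ≤ U) (c : K) :
    (X.presheaf.map (homOfLE h).op).hom (kSec f U c) = kSec f V c := by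
  have : f.appLE ⊤ U le_top ≫ X.presheaf.map (homOfLE h).op = f.appLE ⊤ V le_top :=
    Scheme.Hom.appLE_map _ _ _
  change ((Scheme.ΓSpecIso (CommRingCat.of K)).inv ≫ f.appLE ⊤ U le_top ≫
    X.presheaf.map (homOfLE h).op).hom c = _
  rw [this]
  rfl

theorem evaluation_kSec (f : X ⟶ Spec (CommRingCat.of K)) (U : X.Opens) (ξ : X) (hξ : ξ ∈ U)
    (c : K) : (X.evaluation U ξ hξ).hom (kSec f U c) = kRes f ξ c := by
  have h1 : X.presheaf.map (homOfLE (le_top : U ≤ ⊤)).op ≫ X.evaluation U ξ hξ =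
      X.evaluation ⊤ ξ trivial := by
    rw [← Scheme.germ_residue, ← Scheme.germ_residue, ← Category.assoc,
      TopCat.Presheaf.germ_res]
  rw [← map_kSec f (le_top : U ≤ ⊤) c]
  change (X.presheaf.map (homOfLE (le_top : U ≤ ⊤)).op ≫ X.evaluation U ξ hξ).hom _ = _
  rw [h1]
  rfl

theorem finiteType_kSec (f : X ⟶ Spec (CommRingCat.of K)) [LocallyOfFiniteType f] {U : X.Opens}
    (hU : IsAffineOpen U) : (kSec f U).FiniteType := by
  have h1 : (f.appLE ⊤ U le_top).hom.FiniteType :=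
    f.finiteType_appLE (isAffineOpen_top _) hU le_top
  have h2 : ((Scheme.ΓSpecIso (CommRingCat.of K)).inv).hom.FiniteType :=
    RingHom.FiniteType.of_surjective _
      (ConcreteCategory.bijective_of_isIso (Scheme.ΓSpecIso (CommRingCat.of K)).inv).surjective
  exact h1.comp h2

end KStructure

section Main

variable [IsAlgClosed K]

/-- **The generic point of a curve through `o`.**  -/
theorem exists_point_trdeg_one [IsIntegral X] (f : X ⟶ Spec (CommRingCat.of K))
    [LocallyOfFiniteType f] (o : X) (ho : IsClosed {o}) (hgen : o ≠ genericPoint X)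
    (Z : Set X) (hZ : IsClosed Z) (hZ' : Z ≠ Set.univ) :
    ∃ ξ : X, ξ ⤳ o ∧ ξ ∉ Z ∧
      @Algebra.trdeg K (X.residueField ξ) _ _ (kRes f ξ).toAlgebra = 1 := by
  obtain ⟨U, hU, hoU, -⟩ := exists_isAffineOpen_mem_and_subset (X := X) (x := o) (U := ⊤) trivial
  have hne : Nonempty U := ⟨⟨o, hoU⟩⟩
  have hηU : genericPoint X ∈ U :=
    ((genericPoint_spec X).mem_open_set_iff U.isOpen).mpr ⟨o, Set.mem_univ _, hoU⟩
  let _ : Algebra K Γ(X, U) := (kSec f U).toAlgebra
  have hft : Algebra.FiniteType K Γ(X, U) := finiteType_kSec f hU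
  -- the maximal ideal of `o`
  have hm : (hU.primeIdealOf ⟨o, hoU⟩).asIdeal.IsMaximal :=
    hU.primeIdealOf_isMaximal_of_isClosed ⟨o, hoU⟩ ho
  -- `η ∉ Z`
  have hηZ : genericPoint X ∉ Z := by
    intro h
    apply hZ'
    rw [Set.eq_univ_iff_forall]
    intro x
    exact hZ.closure_subset_iff.mpr (Set.singleton_subset_iff.mpr h)
      ((genericPoint_specializes x).mem_closure)
  -- `Γ(X, U)` is not a field
  have hm0 : (hU.primeIdealOf ⟨o, hoU⟩).asIdeal ≠ ⊥ := by
    intro h0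
    apply hgen
    have hle : hU.primeIdealOf ⟨o, hoU⟩ ≤ hU.primeIdealOf ⟨genericPoint X, hηU⟩ := by
      change (hU.primeIdealOf ⟨o, hoU⟩).asIdeal ≤ _
      rw [h0]
      exact bot_le
    have hsp := ((PrimeSpectrum.le_iff_specializes _ _).mp hle).map hU.fromSpec.continuous
    rw [hU.fromSpec_primeIdealOf, hU.fromSpec_primeIdealOf] at hsp
    exact (hsp.antisymm (genericPoint_specializes o)).eq
  have hB : ¬ IsField Γ(X, U) :=
    Ring.not_isField_iff_exists_prime.mpr ⟨_, hm0, hm.isPrime⟩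
  -- a nonzero function vanishing on `Z ∩ U`
  obtain ⟨I, hI⟩ := (PrimeSpectrum.isClosed_iff_zeroLocus_ideal _).mp
    (hZ.preimage hU.fromSpec.continuous)
  obtain ⟨g, hgI, hg⟩ : ∃ g ∈ I, g ∉ (hU.primeIdealOf ⟨genericPoint X, hηU⟩).asIdeal := by
    by_contra hcon
    push Not at hcon
    have : hU.primeIdealOf ⟨genericPoint X, hηU⟩ ∈ PrimeSpectrum.zeroLocus (I : Set Γ(X, U)) :=
      fun g hg => hcon g hg
    have h2 : hU.primeIdealOf ⟨genericPoint X, hηU⟩ ∈ hU.fromSpec ⁻¹' Z := by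
      rw [hI]
      exact this
    have h3 : hU.fromSpec (hU.primeIdealOf ⟨genericPoint X, hηU⟩) ∈ Z := h2
    rw [hU.fromSpec_primeIdealOf] at h3
    exact hηZ h3
  have hg0 : g ≠ 0 := fun h => hg (h ▸ Ideal.zero_mem _)
  obtain ⟨q, hqp, hqm, hgq, φ, hφinj, hφint⟩ :=
    exists_prime_le_integral_polynomial (K := K) hB (hU.primeIdealOf ⟨o, hoU⟩).asIdeal hg0
  -- the point `ξ`
  have hξU : hU.fromSpec ⟨q, hqp⟩ ∈ U := by
    rw [← SetLike.mem_coe, ← hU.range_fromSpec]
    exact Set.mem_range_self _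
  have hprime : hU.primeIdealOf ⟨hU.fromSpec ⟨q, hqp⟩, hξU⟩ = ⟨q, hqp⟩ :=
    hU.fromSpec.isOpenEmbedding.injective (hU.fromSpec_primeIdealOf _)
  refine ⟨hU.fromSpec ⟨q, hqp⟩, ?_, ?_, ?_⟩
  · have hle : (⟨q, hqp⟩ : PrimeSpectrum Γ(X, U)) ≤ hU.primeIdealOf ⟨o, hoU⟩ := hqm
    have hsp := ((PrimeSpectrum.le_iff_specializes _ _).mp hle).map hU.fromSpec.continuous
    rwa [hU.fromSpec_primeIdealOf] at hsp
  · intro hξZ
    have : (⟨q, hqp⟩ : PrimeSpectrum Γ(X, U)) ∈ hU.fromSpec ⁻¹' Z := hξZ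
    rw [hI] at this
    exact hgq (this hgI)
  · let _ : Algebra K (X.residueField (hU.fromSpec ⟨q, hqp⟩)) :=
      (kRes f (hU.fromSpec ⟨q, hqp⟩)).toAlgebra
    let _ : Algebra Γ(X, U) (X.residueField (hU.fromSpec ⟨q, hqp⟩)) :=
      (X.evaluation U (hU.fromSpec ⟨q, hqp⟩) hξU).hom.toAlgebra
    have hT : IsScalarTower K Γ(X, U) (X.residueField (hU.fromSpec ⟨q, hqp⟩)) :=
      IsScalarTower.of_algebraMap_eq (fun c => (evaluation_kSec f U _ hξU c).symm)
    refine trdeg_eq_one_of_hgen (A := Γ(X, U)) ?_ q ?_ φ hφinj hφint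
    · exact exists_evaluation_mul_eq hU _ hξU
    · intro a
      have := evaluation_eq_zero_iff hU _ hξU a
      rw [hprime] at this
      exact this

end Main

end Fermat.Agent.S26lib.Curves
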