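import Mathlib
import Fermat.Agent.S26lib.Curves.Point

/-!
# The normalisation of a curve through a point

`X` a separated scheme over the algebraically closed field `K`, locally of finite type, and `ξ`
a point whose residue field has transcendence degree one over `K`.  The relative normalisation
`C` of `X` in `Spec κ(ξ)` is an integral scheme, finite over `X`, smooth over `K`, covered by
spectra of Dedekind domains.
-/

namespace Fermat.Agent.S26lib.Curves

open AlgebraicGeometry CategoryTheory Polynomial IsLocalRing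

universe u

variable {K : Type u} [Field K] {X : Scheme.{u}}

section Transport

theorem isDedekindDomain_of_ringEquiv {A B : Type*} [CommRing A] [CommRing B]
    [IsDedekindDomain A] (e : A ≃+* B) : IsDedekindDomain B := by
  have hdom : IsDomain B := e.toMulEquiv.isDomain_iff.mp inferInstance
  have hnoeth : IsNoetherianRing B := isNoetherianRing_of_ringEquiv A e
  have hic : IsIntegrallyClosed B := IsIntegrallyClosed.of_equiv e
  have hdim : Ring.DimensionLEOne B := by
    refine ⟨fun {p} hp0 hp => ?_⟩
    have hq : (p.comap (e : A →+* B)).IsPrime := Ideal.comap_isPrime _ _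
    have hq0 : p.comap (e : A →+* B) ≠ ⊥ := by
      obtain ⟨x, hx, hx0⟩ := Submodule.exists_mem_ne_zero_of_ne_bot hp0
      intro h
      have : e.symm x ∈ p.comap (e : A →+* B) := by
        rw [Ideal.mem_comap]
        simpa using hx
      rw [h, Ideal.mem_bot] at this
      exact hx0 (by simpa using this)
    have hqm : (p.comap (e : A →+* B)).IsMaximal := hq.isMaximal hq0
    have : p = (p.comap (e : A →+* B)).comap (e.symm : B →+* A) := by
      ext x
      rw [Ideal.mem_comap, Ideal.mem_comap]
      simp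
    rw [this]
    exact Ideal.comap_isMaximal_of_surjective _ e.symm.surjective
  exact { hdom, hnoeth, hdim, hic with }

end Transport

section ResidueFieldScheme

variable (ξ : X)

theorem fromSpecResidueField_preimage_of_mem {U : X.Opens} (hξ : ξ ∈ U) :
    X.fromSpecResidueField ξ ⁻¹ᵁ U = ⊤ := by
  ext s
  simp [hξ]

theorem fromSpecStalk_preimage_of_mem {U : X.Opens} (hξ : ξ ∈ U) :
    X.fromSpecStalk ξ ⁻¹ᵁ U = ⊤ := by
  ext s
  simp only [Scheme.Hom.coe_preimage, Set.mem_preimage, SetLike.mem_coe,
    TopologicalSpace.Opens.coe_top, Set.mem_univ, iff_true]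
  have : X.fromSpecStalk ξ s ∈ Set.range (X.fromSpecStalk ξ) := Set.mem_range_self s
  rw [Scheme.range_fromSpecStalk] at this
  exact this.mem_open U.2 hξ

theorem fromSpecStalk_appLE_top {U : X.Opens} (hξ : ξ ∈ U)
    (h : ⊤ ≤ X.fromSpecStalk ξ ⁻¹ᵁ U) :
    (X.fromSpecStalk ξ).appLE U ⊤ h = X.presheaf.germ U ξ hξ ≫ (Scheme.ΓSpecIso _).inv := by
  rw [Scheme.Hom.appLE, Scheme.fromSpecStalk_app hξ]
  simp only [Category.assoc, ← Functor.map_comp]
  have : ∀ (i : Opposite.op (⊤ : (Spec (X.presheaf.stalk ξ)).Opens) ⟶ Opposite.op ⊤),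
      (Spec (X.presheaf.stalk ξ)).presheaf.map i = 𝟙 _ := by
    intro i
    rw [Subsingleton.elim i (𝟙 _), CategoryTheory.Functor.map_id]
  rw [this, Category.comp_id]

theorem fromSpecResidueField_appLE_top {U : X.Opens} (hξ : ξ ∈ U)
    (h : ⊤ ≤ X.fromSpecResidueField ξ ⁻¹ᵁ U) :
    (X.fromSpecResidueField ξ).appLE U ⊤ h ≫ (Scheme.ΓSpecIso _).hom = X.evaluation U ξ hξ := by
  unfold Scheme.fromSpecResidueField
  rw [← Scheme.Hom.appLE_comp_appLE _ _ U ⊤ ⊤ (fromSpecStalk_preimage_of_mem ξ hξ).ge le_top,
    fromSpecStalk_appLE_top ξ hξ]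
  simp only [Category.assoc]
  have h2 : Scheme.Hom.appLE (Spec.map (X.residue ξ)) ⊤ ⊤ le_top =
      (Spec.map (X.residue ξ)).appTop := Scheme.Hom.appLE_eq_app _
  rw [h2, Scheme.ΓSpecIso_naturality, Iso.inv_hom_id_assoc]
  rfl

/-- sections of `Spec κ(ξ)` over the preimage of an open containing `ξ`. -/
noncomputable def sectionIso {U : X.Opens} (hξ : ξ ∈ U) :
    Γ(Spec (X.residueField ξ), X.fromSpecResidueField ξ ⁻¹ᵁ U) ≅ X.residueField ξ :=
  (Spec (X.residueField ξ)).presheaf.mapIso
    (eqToIso (fromSpecResidueField_preimage_of_mem ξ hξ).symm).op ≪≫ Scheme.ΓSpecIso _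

theorem app_sectionIso {U : X.Opens} (hξ : ξ ∈ U) :
    (X.fromSpecResidueField ξ).app U ≫ (sectionIso ξ hξ).hom = X.evaluation U ξ hξ := by
  rw [← fromSpecResidueField_appLE_top ξ hξ (fromSpecResidueField_preimage_of_mem ξ hξ).ge]
  rfl

/-- the ring isomorphism `Γ(Spec κ(ξ), j⁻¹U) ≃ κ(ξ)`. -/
noncomputable def sectionEquiv {U : X.Opens} (hξ : ξ ∈ U) :
    Γ(Spec (X.residueField ξ), X.fromSpecResidueField ξ ⁻¹ᵁ U) ≃+* X.residueField ξ :=
  (sectionIso ξ hξ).commRingCatIsoToRingEquiv

theorem sectionEquiv_app {U : X.Opens} (hξ : ξ ∈ U) (a : Γ(X, U)) :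
    sectionEquiv ξ hξ ((X.fromSpecResidueField ξ).app U a) = X.evaluation U ξ hξ a := by
  rw [← app_sectionIso ξ hξ]
  rfl

theorem isField_section {U : X.Opens} (hξ : ξ ∈ U) :
    IsField Γ(Spec (X.residueField ξ), X.fromSpecResidueField ξ ⁻¹ᵁ U) :=
  (sectionEquiv ξ hξ).toMulEquiv.isField (Field.toIsField _)

end ResidueFieldScheme

section Chart

variable [IsAlgClosed K] (f : X ⟶ Spec (CommRingCat.of K)) [LocallyOfFiniteType f] (ξ : X)

/-- **The chart of the normalisation over an affine open containing `ξ`.** -/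
theorem chart_facts
    (htr : @Algebra.trdeg K (X.residueField ξ) _ _ (kRes f ξ).toAlgebra = 1)
    {U : X.Opens} (hU : IsAffineOpen U) (hξ : ξ ∈ U) :
    letI := ((X.fromSpecResidueField ξ).app U).hom.toAlgebra
    IsDedekindDomain (integralClosure Γ(X, U)
        Γ(Spec (X.residueField ξ), X.fromSpecResidueField ξ ⁻¹ᵁ U)) ∧
      IsFractionRing (integralClosure Γ(X, U)
        Γ(Spec (X.residueField ξ), X.fromSpecResidueField ξ ⁻¹ᵁ U))
        Γ(Spec (X.residueField ξ), X.fromSpecResidueField ξ ⁻¹ᵁ U) ∧
      ((algebraMap Γ(X, U) (integralClosure Γ(X, U)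
        Γ(Spec (X.residueField ξ), X.fromSpecResidueField ξ ⁻¹ᵁ U))).comp (kSec f U)).Smooth ∧
      @Algebra.trdeg K Γ(Spec (X.residueField ξ), X.fromSpecResidueField ξ ⁻¹ᵁ U) _ _
        (((X.fromSpecResidueField ξ).app U).hom.comp (kSec f U)).toAlgebra = 1 := by
  let _ : Algebra Γ(X, U) Γ(Spec (X.residueField ξ), X.fromSpecResidueField ξ ⁻¹ᵁ U) :=
    ((X.fromSpecResidueField ξ).app U).hom.toAlgebra
  let _ : Algebra K Γ(X, U) := (kSec f U).toAlgebra
  let _ : Algebra K Γ(Spec (X.residueField ξ), X.fromSpecResidueField ξ ⁻¹ᵁ U) :=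
    ((algebraMap Γ(X, U) Γ(Spec (X.residueField ξ), X.fromSpecResidueField ξ ⁻¹ᵁ U)).comp
      (kSec f U)).toAlgebra
  have hT : IsScalarTower K Γ(X, U) Γ(Spec (X.residueField ξ), X.fromSpecResidueField ξ ⁻¹ᵁ U) :=
    IsScalarTower.of_algebraMap_eq' rfl
  have hft : Algebra.FiniteType K Γ(X, U) := finiteType_kSec f hU
  have hmap : ∀ a : Γ(X, U), sectionEquiv ξ hξ (algebraMap Γ(X, U)
      Γ(Spec (X.residueField ξ), X.fromSpecResidueField ξ ⁻¹ᵁ U) a) =
      (X.evaluation U ξ hξ).hom a := fun a => sectionEquiv_app ξ hξ a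
  have hgen : ∀ x : Γ(Spec (X.residueField ξ), X.fromSpecResidueField ξ ⁻¹ᵁ U),
      ∃ a b : Γ(X, U), algebraMap Γ(X, U)
          Γ(Spec (X.residueField ξ), X.fromSpecResidueField ξ ⁻¹ᵁ U) b ≠ 0 ∧
        x * algebraMap Γ(X, U) Γ(Spec (X.residueField ξ), X.fromSpecResidueField ξ ⁻¹ᵁ U) b =
          algebraMap Γ(X, U) Γ(Spec (X.residueField ξ), X.fromSpecResidueField ξ ⁻¹ᵁ U) a := by
    intro x
    obtain ⟨a, b, hb, hab⟩ := exists_evaluation_mul_eq hU ξ hξ (sectionEquiv ξ hξ x)
    refine ⟨a, b, ?_, ?_⟩
    · intro h0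
      apply hb
      rw [← hmap, h0, map_zero]
    · apply (sectionEquiv ξ hξ).injective
      rw [map_mul, hmap, hmap]
      exact hab
  have htrL : Algebra.trdeg K Γ(Spec (X.residueField ξ), X.fromSpecResidueField ξ ⁻¹ᵁ U) = 1 := by
    let _ : Algebra K (X.residueField ξ) := (kRes f ξ).toAlgebra
    let e : Γ(Spec (X.residueField ξ), X.fromSpecResidueField ξ ⁻¹ᵁ U) ≃ₐ[K] X.residueField ξ :=
      AlgEquiv.ofRingEquiv (f := sectionEquiv ξ hξ) (fun c => by
        change sectionEquiv ξ hξ (algebraMap Γ(X, U) _ (kSec f U c)) = kRes f ξ c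
        rw [hmap]
        exact evaluation_kSec f U ξ hξ c)
    rw [e.trdeg_eq]
    exact htr
  obtain ⟨-, h2, -, h4, h5⟩ := chart_main_of_isField (K := K) (A := Γ(X, U))
    (isField_section ξ hξ) hgen htrL
  exact ⟨h2, h4, h5, htrL⟩

end Chart

section KStructure

/-- an affine chart of a `K`-scheme, as a morphism of spectra. -/
theorem fromSpec_comp_eq (f : X ⟶ Spec (CommRingCat.of K)) {U : X.Opens} (hU : IsAffineOpen U) :
    hU.fromSpec ≫ f = Spec.map (CommRingCat.ofHom (kSec f U)) := by
  rw [← IsAffineOpen.SpecMap_appLE_fromSpec f (isAffineOpen_top _) hU le_top,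
    IsAffineOpen.fromSpec_top, Scheme.isoSpec_Spec_inv, ← Spec.map_comp]
  rfl

theorem kSec_top (f : X ⟶ Spec (CommRingCat.of K)) (c : K) :
    kSec f ⊤ c = f.appTop.hom ((Scheme.ΓSpecIso (CommRingCat.of K)).inv.hom c) := by
  unfold kSec
  have : f.appLE ⊤ ⊤ le_top = f.appTop := Scheme.Hom.appLE_eq_app _
  rw [this]
  rfl

theorem germ_kSec [IsIntegral X] (f : X ⟶ Spec (CommRingCat.of K)) (V : X.Opens) [Nonempty V]
    (c : K) :
    (X.germToFunctionField V).hom (kSec f V c) =
      (@Scheme.germToFunctionField X _ ⊤ ⟨⟨genericPoint X, trivial⟩⟩).hom (kSec f ⊤ c) := by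
  rw [← map_kSec f (le_top : V ≤ ⊤) c]
  change (X.presheaf.map (homOfLE (le_top : V ≤ ⊤)).op ≫ X.germToFunctionField V).hom _ = _
  unfold Scheme.germToFunctionField
  rw [TopCat.Presheaf.germ_res]

end KStructure

section Global

variable (ξ : X) [QuasiCompact (X.fromSpecResidueField ξ)]
  [QuasiSeparated (X.fromSpecResidueField ξ)]

theorem fromNormalization_toNormalization_apply (s : Spec (X.residueField ξ)) :
    (X.fromSpecResidueField ξ).fromNormalization
      ((X.fromSpecResidueField ξ).toNormalization s) = ξ := by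
  rw [← Scheme.Hom.comp_apply, Scheme.Hom.toNormalization_fromNormalization,
    Scheme.fromSpecResidueField_apply]

/-- every point of the normalisation lies over a specialisation of `ξ`. -/
theorem specializes_fromNormalization (c : (X.fromSpecResidueField ξ).normalization) :
    ξ ⤳ (X.fromSpecResidueField ξ).fromNormalization c := by
  have hd : DenseRange (X.fromSpecResidueField ξ).toNormalization :=
    (X.fromSpecResidueField ξ).toNormalization.denseRange
  let s₀ : Spec (X.residueField ξ) := IsLocalRing.closedPoint (X.residueField ξ)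
  have hsub : ∀ s : Spec (X.residueField ξ), s = s₀ := fun s =>
    Subsingleton.elim (α := PrimeSpectrum (X.residueField ξ)) s s₀
  have hrange : Set.range (X.fromSpecResidueField ξ).toNormalization =
      {(X.fromSpecResidueField ξ).toNormalization s₀} := by
    ext c
    constructor
    · rintro ⟨s, rfl⟩
      rw [hsub s]
      exact rfl
    · rintro rfl
      exact Set.mem_range_self _
  have h1 : (X.fromSpecResidueField ξ).toNormalization s₀ ⤳ c := by
    rw [specializes_iff_mem_closure, ← hrange]
    exact hd c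
  have h2 := h1.map (X.fromSpecResidueField ξ).fromNormalization.continuous
  have h3 : (X.fromSpecResidueField ξ).fromNormalization
      ((X.fromSpecResidueField ξ).toNormalization s₀) = ξ := by
    rw [← Scheme.Hom.comp_apply, Scheme.Hom.toNormalization_fromNormalization,
      Scheme.fromSpecResidueField_apply]
  rwa [h3] at h2

/-- the image of the point of `Spec κ(ξ)` is the generic point of the normalisation. -/
theorem toNormalization_eq_genericPoint (s : Spec (X.residueField ξ)) :
    (X.fromSpecResidueField ξ).toNormalization s =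
      genericPoint (X.fromSpecResidueField ξ).normalization := by
  have hd : DenseRange (X.fromSpecResidueField ξ).toNormalization :=
    (X.fromSpecResidueField ξ).toNormalization.denseRange
  have hsub : ∀ s' : Spec (X.residueField ξ), s' = s := fun s' =>
    Subsingleton.elim (α := PrimeSpectrum (X.residueField ξ)) s' s
  have hrange : Set.range (X.fromSpecResidueField ξ).toNormalization =
      {(X.fromSpecResidueField ξ).toNormalization s} := by
    ext c
    constructor
    · rintro ⟨s', rfl⟩
      rw [hsub s']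
      exact rfl
    · rintro rfl
      exact Set.mem_range_self _
  have h1 : IsGenericPoint ((X.fromSpecResidueField ξ).toNormalization s) Set.univ := by
    rw [isGenericPoint_def, ← hrange]
    exact hd.closure_range
  exact h1.eq (genericPoint_spec _)

theorem fromNormalization_genericPoint :
    (X.fromSpecResidueField ξ).fromNormalization
      (genericPoint (X.fromSpecResidueField ξ).normalization) = ξ := by
  rw [← toNormalization_eq_genericPoint ξ (IsLocalRing.closedPoint (X.residueField ξ)),
    fromNormalization_toNormalization_apply]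

/-- the normalisation maps onto the closure of `ξ`. -/
theorem exists_fromNormalization_eq {o : X} (ho : ξ ⤳ o) :
    ∃ c : (X.fromSpecResidueField ξ).normalization,
      (X.fromSpecResidueField ξ).fromNormalization c = o := by
  have hcl : IsClosed (Set.range (X.fromSpecResidueField ξ).fromNormalization) :=
    (X.fromSpecResidueField ξ).fromNormalization.isClosedMap.isClosed_range
  have hξ : ξ ∈ Set.range (X.fromSpecResidueField ξ).fromNormalization :=
    ⟨_, fromNormalization_genericPoint ξ⟩
  exact ho.mem_closed hcl hξ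

/-- the charts over the affine opens containing `ξ` cover the normalisation. -/
theorem exists_chart (c : (X.fromSpecResidueField ξ).normalization) :
    ∃ U : X.affineOpens, ξ ∈ U.1 ∧ c ∈ (X.fromSpecResidueField ξ).fromNormalization ⁻¹ᵁ U.1 := by
  obtain ⟨_, ⟨U, hU, rfl⟩, hcU, -⟩ := X.isBasis_affineOpens.exists_subset_of_mem_open
    (Set.mem_univ ((X.fromSpecResidueField ξ).fromNormalization c)) isOpen_univ
  exact ⟨⟨U, hU⟩, (specializes_fromNormalization ξ c).mem_open U.2 hcU, hcU⟩

/-- the cover of the normalisation by the charts over the affine opens containing `ξ`. -/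
noncomputable def chartCover : (X.fromSpecResidueField ξ).normalization.OpenCover :=
  Scheme.Cover.mkOfCovers {U : X.affineOpens // ξ ∈ U.1}
    (fun U => (X.fromSpecResidueField ξ).normalizationOpenCover.X U.1)
    (fun U => (X.fromSpecResidueField ξ).normalizationOpenCover.f U.1)
    (fun c => by
      obtain ⟨U, hξU, hcU⟩ := exists_chart ξ c
      rw [(X.fromSpecResidueField ξ).fromNormalization_preimage U] at hcU
      obtain ⟨y, hy⟩ := hcU
      exact ⟨⟨U, hξU⟩, y, hy⟩)
    (fun U => inferInstance)

theorem chart_comp_eq (f : X ⟶ Spec (CommRingCat.of K)) (U : X.affineOpens) :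
    (X.fromSpecResidueField ξ).normalizationOpenCover.f U ≫
      (X.fromSpecResidueField ξ).fromNormalization ≫ f =
    Spec.map (CommRingCat.ofHom (kSec f U.1) ≫
      (X.fromSpecResidueField ξ).normalizationDiagramMap.app (.op U.1)) := by
  have h1 := (X.fromSpecResidueField ξ).ι_fromNormalization U
  calc (X.fromSpecResidueField ξ).normalizationOpenCover.f U ≫
        (X.fromSpecResidueField ξ).fromNormalization ≫ f
      = ((X.fromSpecResidueField ξ).normalizationOpenCover.f U ≫
        (X.fromSpecResidueField ξ).fromNormalization) ≫ f := (Category.assoc _ _ _).symm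
    _ = (Spec.map ((X.fromSpecResidueField ξ).normalizationDiagramMap.app (.op U.1)) ≫
        U.2.fromSpec) ≫ f := congrArg (· ≫ f) h1
    _ = Spec.map ((X.fromSpecResidueField ξ).normalizationDiagramMap.app (.op U.1)) ≫
        (U.2.fromSpec ≫ f) := Category.assoc _ _ _
    _ = Spec.map ((X.fromSpecResidueField ξ).normalizationDiagramMap.app (.op U.1)) ≫
        Spec.map (CommRingCat.ofHom (kSec f U.1)) := by rw [fromSpec_comp_eq f U.2]
    _ = _ := (Spec.map_comp _ _).symm

variable [IsAlgClosed K] (f : X ⟶ Spec (CommRingCat.of K)) [LocallyOfFiniteType f]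

theorem smooth_fromNormalization_comp
    (htr : @Algebra.trdeg K (X.residueField ξ) _ _ (kRes f ξ).toAlgebra = 1) :
    Smooth ((X.fromSpecResidueField ξ).fromNormalization ≫ f) := by
  refine IsZariskiLocalAtSource.of_openCover (chartCover ξ) ?_
  intro (U : {U : X.affineOpens // ξ ∈ U.1})
  change Smooth ((X.fromSpecResidueField ξ).normalizationOpenCover.f U.1 ≫
    (X.fromSpecResidueField ξ).fromNormalization ≫ f)
  rw [chart_comp_eq ξ f U.1]
  exact (HasRingHomProperty.Spec_iff (P := @Smooth)).mpr (chart_facts f ξ htr U.1.2 U.2).2.2.1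

theorem isFinite_fromNormalization
    (htr : @Algebra.trdeg K (X.residueField ξ) _ _ (kRes f ξ).toAlgebra = 1) :
    IsFinite (X.fromSpecResidueField ξ).fromNormalization := by
  have h1 := smooth_fromNormalization_comp ξ f htr
  have h2 : LocallyOfFiniteType ((X.fromSpecResidueField ξ).fromNormalization ≫ f) :=
    inferInstance
  have h3 : LocallyOfFiniteType (X.fromSpecResidueField ξ).fromNormalization :=
    locallyOfFiniteType_of_comp _ f
  exact (IsFinite.iff_isIntegralHom_and_locallyOfFiniteType _).mpr ⟨inferInstance, h3⟩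

/-- the charts of the normalisation are Dedekind. -/
theorem exists_dedekind_chart
    (htr : @Algebra.trdeg K (X.residueField ξ) _ _ (kRes f ξ).toAlgebra = 1)
    (c : (X.fromSpecResidueField ξ).normalization) :
    ∃ V : (X.fromSpecResidueField ξ).normalization.Opens, IsAffineOpen V ∧ c ∈ V ∧
      IsDedekindDomain Γ((X.fromSpecResidueField ξ).normalization, V) := by
  obtain ⟨U, hξU, hcU⟩ := exists_chart ξ c
  refine ⟨(X.fromSpecResidueField ξ).fromNormalization ⁻¹ᵁ U.1, U.2.preimage _, hcU, ?_⟩
  have h1 := (chart_facts f ξ htr U.2 hξU).1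
  let _ : Algebra Γ(X, U.1) Γ(Spec (X.residueField ξ), X.fromSpecResidueField ξ ⁻¹ᵁ U.1) :=
    ((X.fromSpecResidueField ξ).app U.1).hom.toAlgebra
  let e := ((X.fromSpecResidueField ξ).normalizationObjIso U.2).commRingCatIsoToRingEquiv
  exact isDedekindDomain_of_ringEquiv e.symm

omit [IsAlgClosed K] [LocallyOfFiniteType f] in
/-- the structure map of the normalisation on a chart. -/
theorem kSec_fromNormalization_comp (U : X.Opens) (c : K) :
    kSec ((X.fromSpecResidueField ξ).fromNormalization ≫ f)
      ((X.fromSpecResidueField ξ).fromNormalization ⁻¹ᵁ U) c =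
    ((X.fromSpecResidueField ξ).fromNormalization.app U).hom (kSec f U c) := by
  have h1 : f.appLE ⊤ U le_top ≫ (X.fromSpecResidueField ξ).fromNormalization.appLE U
      ((X.fromSpecResidueField ξ).fromNormalization ⁻¹ᵁ U) le_rfl =
      ((X.fromSpecResidueField ξ).fromNormalization ≫ f).appLE ⊤
        ((X.fromSpecResidueField ξ).fromNormalization ⁻¹ᵁ U) le_top :=
    Scheme.Hom.appLE_comp_appLE _ _ _ _ _ _ _
  rw [Scheme.Hom.appLE_eq_app] at h1
  unfold kSec
  rw [← h1]
  rfl

/-- **the function field of the normalisation has transcendence degree one.** -/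
theorem trdeg_functionField_normalization
    (htr : @Algebra.trdeg K (X.residueField ξ) _ _ (kRes f ξ).toAlgebra = 1) :
    @Algebra.trdeg K (X.fromSpecResidueField ξ).normalization.functionField _ _
      ((Scheme.ΓSpecIso (CommRingCat.of K)).inv ≫
        ((X.fromSpecResidueField ξ).fromNormalization ≫ f).appTop ≫
        @Scheme.germToFunctionField (X.fromSpecResidueField ξ).normalization _ ⊤
          ⟨⟨genericPoint _, trivial⟩⟩).hom.toAlgebra = 1 := by
  obtain ⟨_, ⟨U, hU, rfl⟩, hξU, -⟩ := X.isBasis_affineOpens.exists_subset_of_mem_open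
    (Set.mem_univ ξ) isOpen_univ
  have hV : IsAffineOpen ((X.fromSpecResidueField ξ).fromNormalization ⁻¹ᵁ U) := hU.preimage _
  have hne : Nonempty ((X.fromSpecResidueField ξ).fromNormalization ⁻¹ᵁ U) :=
    ⟨⟨(X.fromSpecResidueField ξ).toNormalization (IsLocalRing.closedPoint (X.residueField ξ)), by
      change (X.fromSpecResidueField ξ).fromNormalization _ ∈ U
      rw [fromNormalization_toNormalization_apply]
      exact hξU⟩⟩
  let _ : Algebra Γ(X, U) Γ(Spec (X.residueField ξ), X.fromSpecResidueField ξ ⁻¹ᵁ U) :=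
    ((X.fromSpecResidueField ξ).app U).hom.toAlgebra
  obtain ⟨-, hfracB, -, htrL⟩ := chart_facts f ξ htr hU hξU
  have hfrac : IsFractionRing Γ((X.fromSpecResidueField ξ).normalization,
      (X.fromSpecResidueField ξ).fromNormalization ⁻¹ᵁ U)
      (X.fromSpecResidueField ξ).normalization.functionField :=
    functionField_isFractionRing_of_isAffineOpen _ _ hV
  let e₀ : Γ((X.fromSpecResidueField ξ).normalization,
      (X.fromSpecResidueField ξ).fromNormalization ⁻¹ᵁ U) ≃+*
      integralClosure Γ(X, U) Γ(Spec (X.residueField ξ), X.fromSpecResidueField ξ ⁻¹ᵁ U) :=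
    ((X.fromSpecResidueField ξ).normalizationObjIso hU).commRingCatIsoToRingEquiv
  let e : (X.fromSpecResidueField ξ).normalization.functionField ≃+*
      Γ(Spec (X.residueField ξ), X.fromSpecResidueField ξ ⁻¹ᵁ U) :=
    IsFractionRing.ringEquivOfRingEquiv e₀
  let _ : Algebra K (X.fromSpecResidueField ξ).normalization.functionField :=
    ((Scheme.ΓSpecIso (CommRingCat.of K)).inv ≫
        ((X.fromSpecResidueField ξ).fromNormalization ≫ f).appTop ≫
        @Scheme.germToFunctionField (X.fromSpecResidueField ξ).normalization _ ⊤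
          ⟨⟨genericPoint _, trivial⟩⟩).hom.toAlgebra
  let _ : Algebra K Γ(Spec (X.residueField ξ), X.fromSpecResidueField ξ ⁻¹ᵁ U) :=
    (((X.fromSpecResidueField ξ).app U).hom.comp (kSec f U)).toAlgebra
  have hcomm : ∀ c : K, e (algebraMap K _ c) = algebraMap K _ c := by
    intro c
    have h1 : algebraMap K (X.fromSpecResidueField ξ).normalization.functionField c =
        algebraMap Γ((X.fromSpecResidueField ξ).normalization,
          (X.fromSpecResidueField ξ).fromNormalization ⁻¹ᵁ U) _
          (kSec ((X.fromSpecResidueField ξ).fromNormalization ≫ f)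
            ((X.fromSpecResidueField ξ).fromNormalization ⁻¹ᵁ U) c) := by
      change _ = ((X.fromSpecResidueField ξ).normalization.germToFunctionField _).hom _
      rw [germ_kSec, kSec_top]
      rfl
    rw [h1, IsFractionRing.ringEquivOfRingEquiv_algebraMap, kSec_fromNormalization_comp]
    have h2 : e₀ (((X.fromSpecResidueField ξ).fromNormalization.app U).hom (kSec f U c)) =
        algebraMap Γ(X, U) (integralClosure Γ(X, U)
          Γ(Spec (X.residueField ξ), X.fromSpecResidueField ξ ⁻¹ᵁ U)) (kSec f U c) := by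
      rw [(X.fromSpecResidueField ξ).fromNormalization_app hU]
      change ((X.fromSpecResidueField ξ).normalizationObjIso hU).hom.hom
        (((X.fromSpecResidueField ξ).normalizationObjIso hU).inv.hom _) = _
      rw [← CommRingCat.comp_apply, Iso.inv_hom_id]
      rfl
    rw [h2]
    rfl
  let e' : (X.fromSpecResidueField ξ).normalization.functionField ≃ₐ[K]
      Γ(Spec (X.residueField ξ), X.fromSpecResidueField ξ ⁻¹ᵁ U) :=
    AlgEquiv.ofRingEquiv (f := e) hcomm
  rw [e'.trdeg_eq]
  exact htrL

end Global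

end Fermat.Agent.S26lib.Curves
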