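import Mathlib
import Fermat.Agent.S26lib.Curves.Normalize
import Fermat.Agent.S26lib.CurvePlace.Charts
import Fermat.Agent.S26lib.Grp.Nu

/-!
# A smooth curve through a point

`X` integral, separated and locally of finite type over the algebraically closed field `K`, `o` a
closed point which is not the generic point, `Z ≠ X` closed.  There are an integral scheme `C`,
smooth over `K`, all of whose non-generic local rings are discrete valuation rings, with function
field of transcendence degree one, and a finite morphism `γ : C ⟶ X` through `o` whose image is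
not contained in `Z`.  When `X` is proper, so is `C`.
-/

namespace Fermat.Agent.S26lib.Curves

open AlgebraicGeometry CategoryTheory

universe u

variable {K : Type u} [Field K] [IsAlgClosed K] {X : Scheme.{u}} [IsIntegral X]

/-- **A smooth curve through a closed point, not contained in a given proper closed subset.** -/
theorem exists_smooth_curve (f : X ⟶ Spec (CommRingCat.of K)) [LocallyOfFiniteType f]
    [IsSeparated f] (o : X) (ho : IsClosed {o}) (hgen : o ≠ genericPoint X)
    (Z : Set X) (hZ : IsClosed Z) (hZ' : Z ≠ Set.univ) :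
    ∃ (C : Scheme.{u}) (_ : IsIntegral C) (γ : C ⟶ X),
      IsFinite γ ∧ Smooth (γ ≫ f) ∧
      (∀ c : C, c = genericPoint C ∨ IsDiscreteValuationRing (C.presheaf.stalk c)) ∧
      (letI := kAlgebraFF (γ ≫ f); Algebra.trdeg K C.functionField = 1) ∧
      γ (genericPoint C) ⤳ o ∧ γ (genericPoint C) ∉ Z ∧
      (∃ c₀ : C, IsClosed {c₀} ∧ γ c₀ = o) ∧ (∃ c₁ : C, IsClosed {c₁} ∧ γ c₁ ∉ Z) := by
  obtain ⟨ξ, hξo, hξZ, htr⟩ := exists_point_trdeg_one f o ho hgen Z hZ hZ'
  have haff : IsAffineHom (X.fromSpecResidueField ξ) := IsAffineHom.of_comp _ f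
  have hfin := isFinite_fromNormalization ξ f htr
  have hsm := smooth_fromNormalization_comp ξ f htr
  have hjac : JacobsonSpace (X.fromSpecResidueField ξ).normalization :=
    LocallyOfFiniteType.jacobsonSpace ((X.fromSpecResidueField ξ).fromNormalization ≫ f)
  refine ⟨(X.fromSpecResidueField ξ).normalization, inferInstance,
    (X.fromSpecResidueField ξ).fromNormalization, hfin, hsm, ?_, ?_, ?_, ?_, ?_, ?_⟩
  · exact CurvePlace.hreg_of_dedekind_charts (exists_dedekind_chart ξ f htr)
  · exact trdeg_functionField_normalization ξ f htr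
  · rw [fromNormalization_genericPoint]
    exact hξo
  · rw [fromNormalization_genericPoint]
    exact hξZ
  · -- a closed point over `o`
    obtain ⟨c, hc⟩ := exists_fromNormalization_eq ξ hξo
    have hcl : IsClosed ((X.fromSpecResidueField ξ).fromNormalization ⁻¹' {o}) :=
      ho.preimage (X.fromSpecResidueField ξ).fromNormalization.continuous
    obtain ⟨c₀, hc₀, hc₀'⟩ := nonempty_inter_closedPoints ⟨c, hc⟩ hcl.isLocallyClosed
    exact ⟨c₀, hc₀', hc₀⟩
  · -- a closed point outside `Z`
    have hop : IsOpen ((X.fromSpecResidueField ξ).fromNormalization ⁻¹' Zᶜ) :=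
      hZ.isOpen_compl.preimage (X.fromSpecResidueField ξ).fromNormalization.continuous
    have hne : ((X.fromSpecResidueField ξ).fromNormalization ⁻¹' Zᶜ).Nonempty :=
      ⟨genericPoint _, by
        change (X.fromSpecResidueField ξ).fromNormalization _ ∉ Z
        rw [fromNormalization_genericPoint]
        exact hξZ⟩
    obtain ⟨c₁, hc₁, hc₁'⟩ := nonempty_inter_closedPoints hne hop.isLocallyClosed
    exact ⟨c₁, hc₁', hc₁⟩

/-- the proper case: the curve is proper over `K`. -/
theorem exists_smooth_proper_curve (f : X ⟶ Spec (CommRingCat.of K)) [IsProper f]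
    (o : X) (ho : IsClosed {o}) (hgen : o ≠ genericPoint X)
    (Z : Set X) (hZ : IsClosed Z) (hZ' : Z ≠ Set.univ) :
    ∃ (C : Scheme.{u}) (_ : IsIntegral C) (γ : C ⟶ X),
      IsFinite γ ∧ IsProper (γ ≫ f) ∧ Smooth (γ ≫ f) ∧
      (∀ c : C, c = genericPoint C ∨ IsDiscreteValuationRing (C.presheaf.stalk c)) ∧
      (letI := kAlgebraFF (γ ≫ f); Algebra.trdeg K C.functionField = 1) ∧
      γ (genericPoint C) ⤳ o ∧ γ (genericPoint C) ∉ Z ∧
      (∃ c₀ : C, IsClosed {c₀} ∧ γ c₀ = o) ∧ (∃ c₁ : C, IsClosed {c₁} ∧ γ c₁ ∉ Z) := by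
  obtain ⟨C, hC, γ, h1, h2, h3, h4, h5, h6, h7, h8⟩ :=
    exists_smooth_curve f o ho hgen Z hZ hZ'
  exact ⟨C, hC, γ, h1, inferInstance, h2, h3, h4, h5, h6, h7, h8⟩

end Fermat.Agent.S26lib.Curves
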