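import Mathlib
import Fermat.Agent.S26lib.Curves.Main
import Fermat.Agent.S26lib.VarSch.Push

/-!
# A smooth proper curve through a rational point, in the language of rational points

The statement of `Curves/Main.lean` with `K`-rational points (`VarSch.KPt`) and their push-forward
(`VarSch.KPt.push`): for a rational point `o` of the proper integral `K`-scheme `A` and a closed
subset `Z` missing the generic point, there is a smooth proper curve `γ : C ⟶ A` with rational
points `c₀ ↦ o` and `c₁ ↦` a point outside `Z`.  In particular the rational points of `A` lying on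
such curves through `o` are not thin.
-/

namespace Fermat.Agent.S26lib.Curves

open AlgebraicGeometry CategoryTheory

universe u

variable {K : Type u} [Field K] [IsAlgClosed K] {A : Scheme.{u}} [IsIntegral A]

/-- rational points with the same underlying point are equal. -/
theorem kPt_ext_pt {X : Scheme.{u}} {g : X ⟶ Spec (CommRingCat.of K)} [LocallyOfFiniteType g]
    {a b : VarSch.KPt g} (h : a.pt = b.pt) : a = b :=
  (pointEquivClosedPoint g).injective (Subtype.ext h)

/-- **A smooth proper curve through a rational point, meeting the complement of `Z`.** -/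
theorem exists_smooth_proper_curve_kpt (f : A ⟶ Spec (CommRingCat.of K)) [IsProper f]
    (o : VarSch.KPt f) (ho : o.pt ≠ genericPoint A)
    (Z : Set A) (hZ : IsClosed Z) (hη : genericPoint A ∉ Z) :
    ∃ (C : Scheme.{u}) (_ : IsIntegral C) (γ : C ⟶ A),
      IsFinite γ ∧ IsProper (γ ≫ f) ∧ Smooth (γ ≫ f) ∧
      (∀ c : C, c = genericPoint C ∨ IsDiscreteValuationRing (C.presheaf.stalk c)) ∧
      (letI := kAlgebraFF (γ ≫ f); Algebra.trdeg K C.functionField = 1) ∧
      ∃ c₀ c₁ : VarSch.KPt (γ ≫ f), c₀.push γ rfl = o ∧ (c₁.push γ rfl).pt ∉ Z := by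
  have hZ' : Z ≠ Set.univ := fun h => hη (h ▸ Set.mem_univ _)
  obtain ⟨C, hC, γ, h1, h2, h3, h4, h5, -, -, ⟨c₀, hc₀, hc₀o⟩, ⟨c₁, hc₁, hc₁Z⟩⟩ :=
    exists_smooth_proper_curve f o.pt (VarSch.isClosed_singleton_pt o) ho Z hZ hZ'
  have : LocallyOfFiniteType (γ ≫ f) := inferInstance
  obtain ⟨a₀, ha₀⟩ := VarSch.exists_kpt_pt_eq (f := γ ≫ f) hc₀
  obtain ⟨a₁, ha₁⟩ := VarSch.exists_kpt_pt_eq (f := γ ≫ f) hc₁
  refine ⟨C, hC, γ, h1, h2, h3, h4, h5, a₀, a₁, ?_, ?_⟩
  · apply kPt_ext_pt
    rw [VarSch.KPt.pt_push, ha₀, hc₀o]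
  · rw [VarSch.KPt.pt_push, ha₁]
    exact hc₁Z

end Fermat.Agent.S26lib.Curves
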