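import Mathlib
import Fermat.Agent.S26lib.Prod.Integral
import Fermat.Agent.S26lib.UFD.Corollaries

/-!
# Products of smooth integral schemes over an algebraically closed field

The package of instances which the cube (`Quad.cube`) needs for `X = C ×_K T`: integral,
noetherian, factorial (hence normal) local rings.
-/

namespace Fermat.Agent.S26lib.Curves

open AlgebraicGeometry CategoryTheory CategoryTheory.Limits

universe u

variable {K : Type u} [Field K] [IsAlgClosed K] {X Y : Scheme.{u}}
  (sX : X ⟶ Spec (CommRingCat.of K)) (sY : Y ⟶ Spec (CommRingCat.of K))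

omit [IsAlgClosed K] in
/-- the product of two smooth `K`-schemes is smooth over `K`. -/
theorem smooth_sProd [Smooth sX] [Smooth sY] : Smooth (pullback.fst sX sY ≫ sX) :=
  inferInstance

/-- **the product of two smooth integral `K`-schemes is integral.** -/
theorem isIntegral_pullback_of_smooth [Smooth sX] [Smooth sY] [IsIntegral X] [IsIntegral Y] :
    IsIntegral (pullback sX sY) := by
  have : ConnectedSpace ↥(pullback sX sY) := Fermat.Agent.S26lib.connectedSpace_pullback_of_isAlgClosed sX sY
  exact Prod.isIntegral_of_smooth_of_connectedSpace (pullback.fst sX sY ≫ sX)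

omit [IsAlgClosed K] in
/-- the product of two quasi-compact `K`-schemes locally of finite type is noetherian. -/
theorem isNoetherian_pullback [LocallyOfFiniteType sX] [LocallyOfFiniteType sY]
    [QuasiCompact sX] [QuasiCompact sY] : IsNoetherian (pullback sX sY) := by
  have h1 : LocallyOfFiniteType (pullback.fst sX sY ≫ sX) := inferInstance
  have h2 : IsLocallyNoetherian (pullback sX sY) :=
    LocallyOfFiniteType.isLocallyNoetherian (pullback.fst sX sY ≫ sX)
  have h3 : QuasiCompact (pullback.fst sX sY ≫ sX) := inferInstance
  have h4 : CompactSpace ↥(pullback sX sY) :=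
    QuasiCompact.compactSpace_of_compactSpace (pullback.fst sX sY ≫ sX)
  exact {}

/-- the local rings of the product of two smooth `K`-schemes are factorial. -/
theorem ufm_stalk_pullback [Smooth sX] [Smooth sY] (x : ↥(pullback sX sY)) :
    UniqueFactorizationMonoid ((pullback sX sY).presheaf.stalk x) :=
  UFD.ufm_stalk_of_smooth (pullback.fst sX sY ≫ sX) x

/-- the local rings of a smooth `K`-scheme are integrally closed. -/
theorem isIntegrallyClosed_stalk [Smooth sX] (x : X) :
    IsIntegrallyClosed (X.presheaf.stalk x) :=
  UFD.isIntegrallyClosed_stalk_of_smooth sX x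

end Fermat.Agent.S26lib.Curves
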